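import Fermat.Agent.S28.Subst
import Fermat.Prelude.Thm_ModularCurve_coeffMap_qExpand
import Fermat.Prelude.Def_ModularCurve_X0ModL

/-!
# ES, part E: the formal Hecke operators on Laurent series

For a commutative ring `A`, `ℓ ≠ 0` and a unit `ζ` (an `ℓ`-th root of unity):

* `contract ℓ u = ∑ a_{ℓ n} q^n`;
* `rotProd ℓ ζ u = ∏_{b < ℓ} u(ζ^b x)`;
* `normU ℓ ζ u = contract ℓ (rotProd ℓ ζ u)`: the `q`-expansion of `∏_b φ((τ + b)/ℓ)`
  (the operator `U_ℓ` on functions);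
* `heckeTS ℓ ζ u = u(q^ℓ) * normU ℓ ζ u`: the `q`-expansion of `φ(ℓ τ) ∏_b φ((τ + b)/ℓ)`
  (the operator `T_ℓ` on functions).
-/

set_option autoImplicit false

open ModularCurve Fermat.Agent.S28lib

namespace Fermat.Agent.ESlib

noncomputable section

variable {A : Type*} [CommRing A]

/-! ### `contract` -/

theorem bddBelow_support_contract (ℓ : ℕ) [NeZero ℓ] (u : LaurentSeries A) :
    BddBelow (Function.support fun n : ℤ => u.coeff ((ℓ : ℤ) * n)) := by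
  refine ⟨min u.order 0, fun n hn => ?_⟩
  have hℓ : (1 : ℤ) ≤ ℓ := by exact_mod_cast Nat.pos_of_ne_zero (NeZero.ne ℓ)
  by_contra hlt
  rw [not_le, lt_min_iff] at hlt
  apply hn
  apply HahnSeries.coeff_eq_zero_of_lt_order
  nlinarith [hlt.1, hlt.2]

/-- `∑ a_n q^n ↦ ∑ a_{ℓ n} q^n` -/
def contract (ℓ : ℕ) [NeZero ℓ] (u : LaurentSeries A) : LaurentSeries A :=
  HahnSeries.ofSuppBddBelow (fun n : ℤ => u.coeff ((ℓ : ℤ) * n)) (bddBelow_support_contract ℓ u)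

@[simp]
theorem coeff_contract (ℓ : ℕ) [NeZero ℓ] (u : LaurentSeries A) (n : ℤ) :
    (contract ℓ u).coeff n = u.coeff ((ℓ : ℤ) * n) := rfl

@[simp]
theorem contract_qExpand (ℓ : ℕ) [NeZero ℓ] (u : LaurentSeries A) :
    contract ℓ (qExpand A ℓ u) = u := by
  ext n
  rw [coeff_contract, qExpand_coeff_mul]

theorem qExpand_contract (ℓ : ℕ) [NeZero ℓ] {u : LaurentSeries A}
    (h : ∀ n : ℤ, ¬ (ℓ : ℤ) ∣ n → u.coeff n = 0) : qExpand A ℓ (contract ℓ u) = u := by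
  ext n
  by_cases hn : (ℓ : ℤ) ∣ n
  · obtain ⟨k, rfl⟩ := hn
    rw [qExpand_coeff_mul, coeff_contract]
  · rw [qExpand_coeff_of_not_dvd _ _ hn, h n hn]

theorem coeffMap_contract {B : Type*} [CommRing B] (f : A →+* B) (ℓ : ℕ) [NeZero ℓ]
    (u : LaurentSeries A) : coeffMap f (contract ℓ u) = contract ℓ (coeffMap f u) := by
  ext n
  simp

/-! ### `scale` -/

theorem coeffMap_scale {B : Type*} [CommRing B] (f : A →+* B) (c : Aˣ) (u : LaurentSeries A) :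
    coeffMap f (scale c u) = scale (Units.map (f : A →* B) c) (coeffMap f u) := by
  ext n
  rw [coeffMap_coeff, coeff_scale, coeff_scale, coeffMap_coeff, map_mul, ← map_zpow]
  rfl

theorem scale_scale (c c' : Aˣ) (u : LaurentSeries A) :
    scale c (scale c' u) = scale (c * c') u := by
  ext n
  rw [coeff_scale, coeff_scale, coeff_scale, mul_zpow, Units.val_mul, mul_assoc]

/-! ### `rotProd` -/

/-- `u(x) ↦ ∏_{b < ℓ} u(ζ^b x)` -/
def rotProd (ℓ : ℕ) (ζ : Aˣ) (u : LaurentSeries A) : LaurentSeries A :=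
  ∏ b ∈ Finset.range ℓ, scale (ζ ^ b) u

theorem rotProd_one (ℓ : ℕ) (ζ : Aˣ) : rotProd ℓ ζ (1 : LaurentSeries A) = 1 := by
  simp [rotProd]

theorem rotProd_mul (ℓ : ℕ) (ζ : Aˣ) (u v : LaurentSeries A) :
    rotProd ℓ ζ (u * v) = rotProd ℓ ζ u * rotProd ℓ ζ v := by
  simp [rotProd, Finset.prod_mul_distrib]

theorem rotProd_zero (ℓ : ℕ) [NeZero ℓ] (ζ : Aˣ) : rotProd ℓ ζ (0 : LaurentSeries A) = 0 := by
  rw [rotProd]
  exact Finset.prod_eq_zero (Finset.mem_range.2 (Nat.pos_of_ne_zero (NeZero.ne ℓ))) (map_zero _)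

theorem coeffMap_rotProd {B : Type*} [CommRing B] (f : A →+* B) (ℓ : ℕ) (ζ : Aˣ)
    (u : LaurentSeries A) :
    coeffMap f (rotProd ℓ ζ u) = rotProd ℓ (Units.map (f : A →* B) ζ) (coeffMap f u) := by
  rw [rotProd, rotProd, map_prod]
  refine Finset.prod_congr rfl fun b _ => ?_
  rw [coeffMap_scale, map_pow]

theorem rotProd_one_left (ℓ : ℕ) (u : LaurentSeries A) : rotProd ℓ (1 : Aˣ) u = u ^ ℓ := by
  simp [rotProd, scale_one]

theorem scale_rotProd {ℓ : ℕ} {ζ : Aˣ} (hζ : ζ ^ ℓ = 1) (u : LaurentSeries A) :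
    scale ζ (rotProd ℓ ζ u) = rotProd ℓ ζ u := by
  rw [rotProd, map_prod]
  simp only [scale_scale, ← pow_succ']
  cases ℓ with
  | zero => simp
  | succ k =>
    rw [Finset.prod_range_succ, Finset.prod_range_succ' (fun b => scale (ζ ^ b) u), hζ, pow_zero]

theorem coeff_rotProd_of_not_dvd [IsDomain A] {ℓ : ℕ} {ζ : Aˣ} (hζ : IsPrimitiveRoot ζ ℓ)
    (u : LaurentSeries A) {n : ℤ} (hn : ¬ (ℓ : ℤ) ∣ n) : (rotProd ℓ ζ u).coeff n = 0 := by
  have h := congrArg (fun x => HahnSeries.coeff x n) (scale_rotProd hζ.pow_eq_one u)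
  simp only [coeff_scale] at h
  have h1 : (((ζ ^ n : Aˣ) : A) - 1) * (rotProd ℓ ζ u).coeff n = 0 := by
    rw [sub_mul, h, one_mul, sub_self]
  rcases mul_eq_zero.1 h1 with h2 | h2
  · exfalso
    apply hn
    rw [← hζ.zpow_eq_one_iff_dvd]
    ext
    rw [Units.val_one]
    exact sub_eq_zero.1 h2
  · exact h2

/-! ### `normU` and `heckeTS` -/

/-- the operator `U_ℓ` on functions: `q`-expansion of `∏_b φ((τ + b)/ℓ)` -/
def normU (ℓ : ℕ) [NeZero ℓ] (ζ : Aˣ) (u : LaurentSeries A) : LaurentSeries A :=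
  contract ℓ (rotProd ℓ ζ u)

/-- the operator `T_ℓ` on functions: `q`-expansion of `φ(ℓ τ) ∏_b φ((τ + b)/ℓ)` -/
def heckeTS (ℓ : ℕ) [NeZero ℓ] (ζ : Aˣ) (u : LaurentSeries A) : LaurentSeries A :=
  qExpand A ℓ u * normU ℓ ζ u

theorem coeffMap_normU {B : Type*} [CommRing B] (f : A →+* B) (ℓ : ℕ) [NeZero ℓ] (ζ : Aˣ)
    (u : LaurentSeries A) :
    coeffMap f (normU ℓ ζ u) = normU ℓ (Units.map (f : A →* B) ζ) (coeffMap f u) := by
  rw [normU, normU, coeffMap_contract, coeffMap_rotProd]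

theorem coeffMap_heckeTS {B : Type*} [CommRing B] (f : A →+* B) (ℓ : ℕ) [NeZero ℓ] (ζ : Aˣ)
    (u : LaurentSeries A) :
    coeffMap f (heckeTS ℓ ζ u) = heckeTS ℓ (Units.map (f : A →* B) ζ) (coeffMap f u) := by
  rw [heckeTS, heckeTS, map_mul, coeffMap_normU, coeffMap_qExpand]

theorem qExpand_normU [IsDomain A] {ℓ : ℕ} [NeZero ℓ] {ζ : Aˣ} (hζ : IsPrimitiveRoot ζ ℓ)
    (u : LaurentSeries A) : qExpand A ℓ (normU ℓ ζ u) = rotProd ℓ ζ u :=
  qExpand_contract ℓ fun _ hn => coeff_rotProd_of_not_dvd hζ u hn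

theorem normU_one (ℓ : ℕ) [NeZero ℓ] (ζ : Aˣ) : normU ℓ ζ (1 : LaurentSeries A) = 1 := by
  have h := contract_qExpand ℓ (1 : LaurentSeries A)
  rw [map_one] at h
  rw [normU, rotProd_one, h]

theorem normU_zero (ℓ : ℕ) [NeZero ℓ] (ζ : Aˣ) : normU ℓ ζ (0 : LaurentSeries A) = 0 := by
  rw [normU, rotProd_zero]
  ext n
  simp

theorem normU_mul [IsDomain A] {ℓ : ℕ} [NeZero ℓ] {ζ : Aˣ} (hζ : IsPrimitiveRoot ζ ℓ)
    (u v : LaurentSeries A) : normU ℓ ζ (u * v) = normU ℓ ζ u * normU ℓ ζ v := by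
  apply qExpand_injective (R := A) ℓ
  rw [map_mul, qExpand_normU hζ, qExpand_normU hζ, qExpand_normU hζ, rotProd_mul]

theorem contract_C (ℓ : ℕ) [NeZero ℓ] (a : A) :
    contract ℓ (HahnSeries.C a : LaurentSeries A) = HahnSeries.C a := by
  have h := contract_qExpand ℓ (HahnSeries.C a : LaurentSeries A)
  rwa [qExpand_C] at h

theorem normU_C (ℓ : ℕ) [NeZero ℓ] (ζ : Aˣ) (a : A) :
    normU ℓ ζ (HahnSeries.C a : LaurentSeries A) = HahnSeries.C (a ^ ℓ) := by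
  rw [normU, rotProd]
  simp only [scale_C, Finset.prod_const, Finset.card_range]
  rw [← map_pow, contract_C]

theorem heckeTS_C (ℓ : ℕ) [NeZero ℓ] (ζ : Aˣ) (a : A) :
    heckeTS ℓ ζ (HahnSeries.C a : LaurentSeries A) = HahnSeries.C (a ^ (ℓ + 1)) := by
  rw [heckeTS, normU_C, qExpand_C, ← map_mul, pow_succ']

/-- `normU` as a monoid-with-zero hom -/
def normUHom [IsDomain A] {ℓ : ℕ} [NeZero ℓ] {ζ : Aˣ} (hζ : IsPrimitiveRoot ζ ℓ) :
    LaurentSeries A →*₀ LaurentSeries A where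
  toFun := normU ℓ ζ
  map_zero' := normU_zero ℓ ζ
  map_one' := normU_one ℓ ζ
  map_mul' := normU_mul hζ

@[simp]
theorem normUHom_apply [IsDomain A] {ℓ : ℕ} [NeZero ℓ] {ζ : Aˣ} (hζ : IsPrimitiveRoot ζ ℓ)
    (u : LaurentSeries A) : normUHom hζ u = normU ℓ ζ u := rfl

/-- `heckeTS` as a monoid-with-zero hom -/
def heckeTSHom [IsDomain A] {ℓ : ℕ} [NeZero ℓ] {ζ : Aˣ} (hζ : IsPrimitiveRoot ζ ℓ) :
    LaurentSeries A →*₀ LaurentSeries A where
  toFun := heckeTS ℓ ζ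
  map_zero' := by rw [heckeTS, map_zero, zero_mul]
  map_one' := by rw [heckeTS, map_one, normU_one, one_mul]
  map_mul' u v := by rw [heckeTS, heckeTS, heckeTS, map_mul, normU_mul hζ]; ring

@[simp]
theorem heckeTSHom_apply [IsDomain A] {ℓ : ℕ} [NeZero ℓ] {ζ : Aˣ} (hζ : IsPrimitiveRoot ζ ℓ)
    (u : LaurentSeries A) : heckeTSHom hζ u = heckeTS ℓ ζ u := rfl

/-- independence of the choice of the primitive root -/
theorem rotProd_eq_of_isPrimitiveRoot [IsDomain A] {ℓ : ℕ} [NeZero ℓ] {ζ ζ' : Aˣ}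
    (hζ : IsPrimitiveRoot ζ ℓ) (hζ' : IsPrimitiveRoot ζ' ℓ) (u : LaurentSeries A) :
    rotProd ℓ ζ u = rotProd ℓ ζ' u := by
  classical
  have key : ∀ {ξ : Aˣ}, IsPrimitiveRoot ξ ℓ → rotProd ℓ ξ u =
      ∏ x ∈ (Finset.range ℓ).image (fun b => ξ ^ b), scale x u := by
    intro ξ hξ
    rw [rotProd, Finset.prod_image]
    intro a ha b hb hab
    exact hξ.pow_inj (Finset.mem_range.1 ha) (Finset.mem_range.1 hb) hab
  have himg : ∀ {ξ : Aˣ}, IsPrimitiveRoot ξ ℓ → ∀ x : Aˣ,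
      x ∈ (Finset.range ℓ).image (fun b => ξ ^ b) ↔ x ^ ℓ = 1 := by
    intro ξ hξ x
    rw [Finset.mem_image]
    constructor
    · rintro ⟨b, -, rfl⟩
      rw [← pow_mul, mul_comm, pow_mul, hξ.pow_eq_one, one_pow]
    · intro hx
      have hξ' : IsPrimitiveRoot (ξ : A) ℓ := IsPrimitiveRoot.coe_units_iff.2 hξ
      obtain ⟨i, hi, h⟩ := hξ'.eq_pow_of_pow_eq_one (ξ := (x : A))
        (by rw [← Units.val_pow_eq_pow_val, hx, Units.val_one])
      exact ⟨i, Finset.mem_range.2 hi, Units.ext (by rw [Units.val_pow_eq_pow_val, h])⟩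
  rw [key hζ, key hζ']
  refine Finset.prod_congr ?_ fun _ _ => rfl
  ext x
  rw [himg hζ, himg hζ']

theorem normU_eq_of_isPrimitiveRoot [IsDomain A] {ℓ : ℕ} [NeZero ℓ] {ζ ζ' : Aˣ}
    (hζ : IsPrimitiveRoot ζ ℓ) (hζ' : IsPrimitiveRoot ζ' ℓ) (u : LaurentSeries A) :
    normU ℓ ζ u = normU ℓ ζ' u := by
  rw [normU, normU, rotProd_eq_of_isPrimitiveRoot hζ hζ']

theorem heckeTS_eq_of_isPrimitiveRoot [IsDomain A] {ℓ : ℕ} [NeZero ℓ] {ζ ζ' : Aˣ}
    (hζ : IsPrimitiveRoot ζ ℓ) (hζ' : IsPrimitiveRoot ζ' ℓ) (u : LaurentSeries A) :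
    heckeTS ℓ ζ u = heckeTS ℓ ζ' u := by
  rw [heckeTS, heckeTS, normU_eq_of_isPrimitiveRoot hζ hζ']

/-- `normU` commutes with injective ring homs between domains (Galois action, base change) -/
theorem coeffMap_normU_of_injective [IsDomain A] {B : Type*} [CommRing B] [IsDomain B]
    (f : A →+* B) (hf : Function.Injective f) {ℓ : ℕ} [NeZero ℓ] {ζ : Aˣ} {ζ' : Bˣ}
    (hζ : IsPrimitiveRoot ζ ℓ) (hζ' : IsPrimitiveRoot ζ' ℓ) (u : LaurentSeries A) :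
    coeffMap f (normU ℓ ζ u) = normU ℓ ζ' (coeffMap f u) := by
  rw [coeffMap_normU]
  refine normU_eq_of_isPrimitiveRoot ?_ hζ' _
  rw [← IsPrimitiveRoot.coe_units_iff]
  exact (IsPrimitiveRoot.coe_units_iff.2 hζ).map_of_injective hf

theorem coeffMap_heckeTS_of_injective [IsDomain A] {B : Type*} [CommRing B] [IsDomain B]
    (f : A →+* B) (hf : Function.Injective f) {ℓ : ℕ} [NeZero ℓ] {ζ : Aˣ} {ζ' : Bˣ}
    (hζ : IsPrimitiveRoot ζ ℓ) (hζ' : IsPrimitiveRoot ζ' ℓ) (u : LaurentSeries A) :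
    coeffMap f (heckeTS ℓ ζ u) = heckeTS ℓ ζ' (coeffMap f u) := by
  rw [heckeTS, heckeTS, map_mul, coeffMap_normU_of_injective f hf hζ hζ', coeffMap_qExpand]

/-! ### characteristic `ℓ` -/

theorem qExpand_ofPowerSeries (ℓ : ℕ) [NeZero ℓ] (φ : PowerSeries A) :
    qExpand A ℓ (HahnSeries.ofPowerSeries ℤ A φ)
      = HahnSeries.ofPowerSeries ℤ A (PowerSeries.expand ℓ (NeZero.ne ℓ) φ) := by
  have hℓ : (0 : ℤ) < ℓ := by exact_mod_cast Nat.pos_of_ne_zero (NeZero.ne ℓ)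
  ext k
  by_cases hk : (ℓ : ℤ) ∣ k
  · obtain ⟨m, rfl⟩ := hk
    rw [qExpand_coeff_mul, PowerSeries.coeff_coe, PowerSeries.coeff_coe]
    by_cases hm : m < 0
    · rw [if_pos hm, if_pos (mul_neg_of_pos_of_neg hℓ hm)]
    · rw [if_neg hm, if_neg (by push Not at hm ⊢; positivity), Int.natAbs_mul, Int.natAbs_natCast,
        PowerSeries.coeff_expand_mul]
  · rw [qExpand_coeff_of_not_dvd _ _ hk, PowerSeries.coeff_coe]
    split_ifs with h
    · rfl
    · rw [PowerSeries.coeff_expand_of_not_dvd]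
      intro h2
      exact hk (Int.natCast_dvd.2 h2)

/-- In characteristic `ℓ`: `u^ℓ = u^{(ℓ)}(q^ℓ)`. -/
theorem pow_char_eq_qExpand (ℓ : ℕ) [Fact ℓ.Prime] [NeZero ℓ] [CharP A ℓ] (u : LaurentSeries A) :
    u ^ ℓ = qExpand A ℓ (coeffMap (frobenius A ℓ) u) := by
  have hP : ∀ φ : PowerSeries A,
      PowerSeries.expand ℓ (NeZero.ne ℓ) (PowerSeries.map (frobenius A ℓ) φ) = φ ^ ℓ := by
    intro φ
    rw [← PowerSeries.map_expand]
    exact MvPowerSeries.map_frobenius_expand ℓ (NeZero.ne ℓ)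
  conv_lhs => rw [← LaurentSeries.single_order_mul_powerSeriesPart u]
  conv_rhs => rw [← LaurentSeries.single_order_mul_powerSeriesPart u]
  rw [mul_pow, map_mul, map_mul, coeffMap_single, qExpand_single, coeffMap_ofPowerSeries,
    qExpand_ofPowerSeries, hP, map_pow, HahnSeries.single_pow, map_one, one_pow, nsmul_eq_mul]

theorem normU_one_left_char (ℓ : ℕ) [Fact ℓ.Prime] [NeZero ℓ] [CharP A ℓ] (u : LaurentSeries A) :
    normU ℓ (1 : Aˣ) u = coeffMap (frobenius A ℓ) u := by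
  rw [normU, rotProd_one_left, pow_char_eq_qExpand, contract_qExpand]

end

end Fermat.Agent.ESlib
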