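import Fermat.Agent.ES.E.IntRep
import Fermat.Agent.ES.B.Defs
import Fermat.Agent.S24.PlaceBasic
import Fermat.Agent.ES.K.KILDef

/-!
# ES, part E: inertia acts trivially and the Eichler-Shimura relation on `W_m(ℚ̄, N)`

Everything is deduced from the key injectivity lemma `KILAt` (blueprint v2), which is an explicit
hypothesis here.
-/

set_option autoImplicit false

open ModularCurve AlgebraicCurve Fermat.Agent.S28lib

namespace Fermat.Agent.ESlib

noncomputable section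

/-- the Galois action on the function field -/
abbrev galF (N : ℕ) (σ : Qb ≃ₐ[ℚ] Qb) : modularFunctionFieldBar N ≃+* modularFunctionFieldBar N :=
  arithmeticRingAut (modularFunctionFieldFull N) σ

theorem C_eq_algebraMap (c : Qb) :
    (HahnSeries.C c : LaurentSeries Qb) = algebraMap Qb (LaurentSeries Qb) c := by
  rw [algebraMap_laurentSeries_eq_single, HahnSeries.C_apply]

theorem mDiv_galF {N m : ℕ} {f : modularFunctionFieldBar N} (hf : MDiv Qb m f)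
    (σ : Qb ≃ₐ[ℚ] Qb) : MDiv Qb m (galF N σ f) := by
  refine ⟨(map_ne_zero_iff _ (galF N σ).injective).2 hf.1, fun v => ?_⟩
  set g := arithmeticGalois (modularFunctionFieldFull N) σ with hg
  have h := SemilinearAut.ord_smul g (g⁻¹ • v) f
  rw [smul_inv_smul] at h
  have h2 : g • f = galF N σ f := rfl
  rw [← h2, h]
  exact hf.2 _

theorem redA_ne_zero_imp {A : ValuationSubring Qb} {y : LaurentSeries A} (h : redA A y ≠ 0) :
    incA A y ≠ 0 := by
  intro h0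
  apply h
  rw [incA_injective A (h0.trans (map_zero _).symm), map_zero]

/-- The basic consequence of `KILAt`. -/
theorem sameClass_of_KIL {N : ℕ} {A : ValuationSubring Qb} {m : ℕ} (hm : 0 < m)
    (hK : KILAt N A m) {f₁ f₂ : modularFunctionFieldBar N} (hf₁ : MDiv Qb m f₁)
    (hf₂ : MDiv Qb m f₂) {c : Qb} (hc : c ≠ 0) (Y₁ Y₂ : LaurentSeries A)
    (h₁ : incA A Y₁ ∈ modularFunctionFieldBar N) (h₂ : incA A Y₂ ∈ modularFunctionFieldBar N)
    (hred : redA A Y₁ = redA A Y₂) (hne : redA A Y₁ ≠ 0)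
    (hrel : (f₂ : LaurentSeries Qb) * incA A Y₂
      = HahnSeries.C c * (f₁ : LaurentSeries Qb) * incA A Y₁) :
    SameClass m f₁ f₂ := by
  set Z₁ : modularFunctionFieldBar N := ⟨_, h₁⟩ with hZ₁
  set Z₂ : modularFunctionFieldBar N := ⟨_, h₂⟩ with hZ₂
  have hZ₁0 : Z₁ ≠ 0 := fun h => redA_ne_zero_imp hne (congrArg Subtype.val h)
  have hZ₂0 : Z₂ ≠ 0 := fun h => redA_ne_zero_imp (hred ▸ hne) (congrArg Subtype.val h)
  have hrel' : f₂ * Z₂ = algebraMap Qb (modularFunctionFieldBar N) c * f₁ * Z₁ := by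
    apply Subtype.ext
    rw [C_eq_algebraMap] at hrel
    exact hrel
  have hc' : algebraMap Qb (modularFunctionFieldBar N) c ≠ 0 := by simpa using hc
  obtain ⟨ψ, hψ⟩ := hK Y₁ Y₂ h₁ h₂ hred hne (fun P => by
    have h := congrArg P.ord hrel'
    rw [P.ord_mul hf₂.1 hZ₂0, P.ord_mul (mul_ne_zero hc' hf₁.1) hZ₁0, P.ord_mul hc' hf₁.1,
      S24lib.Place.ord_algebraMap] at h
    have h3 : P.ord Z₁ - P.ord Z₂ = P.ord f₂ - P.ord f₁ := by omega
    rw [h3]
    exact dvd_sub (hf₂.2 P) (hf₁.2 P))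
  obtain ⟨d, hd⟩ := IsAlgClosed.exists_pow_nat_eq c hm
  have hψ0 : ψ ≠ 0 := by
    rintro rfl
    rw [zero_pow hm.ne', zero_mul] at hψ
    exact hZ₁0 hψ.symm
  have hd0 : d ≠ 0 := by
    rintro rfl
    rw [zero_pow hm.ne'] at hd
    exact hc hd.symm
  refine ⟨algebraMap Qb (modularFunctionFieldBar N) d * ψ,
    mul_ne_zero (by simpa using hd0) hψ0, ?_⟩
  have hψ' : ψ ^ m * Z₂ = Z₁ := hψ
  apply mul_right_cancel₀ hZ₂0
  rw [hrel', ← hψ', mul_pow, ← map_pow, hd]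
  ring

theorem redA_galA_ne_zero {A : ValuationSubring Qb} (g : A.decompositionSubgroup ℚ)
    {y : LaurentSeries A} (h : redA A y ≠ 0) : redA A (galA g y) ≠ 0 := by
  intro h0
  apply h
  ext n
  have h1 := congrArg (fun z => HahnSeries.coeff z n) h0
  simp only [redA_galA, HahnSeries.coeff_zero] at h1
  rw [HahnSeries.coeff_zero]
  exact (smul_eq_zero_iff_eq g).1 h1

theorem incA_galA_mem {N : ℕ} {A : ValuationSubring Qb} (g : A.decompositionSubgroup ℚ)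
    {y : LaurentSeries A} (h : incA A y ∈ modularFunctionFieldBar N) :
    incA A (galA g y) ∈ modularFunctionFieldBar N := by
  rw [incA_galA]
  exact coeffMap_mem_laurentBaseChange _ h

/-- **Inertia acts trivially on `W_m(ℚ̄, N)`** (`ℓ ∤ N`, given KIL). -/
theorem inertia_sameClass {N : ℕ} [NeZero N] {ℓ : ℕ} [Fact ℓ.Prime] (hℓN : ¬ ℓ ∣ N)
    {A : ValuationSubring Qb} (hA : A.LiesOverPrime ℓ) {m : ℕ} (hm : 0 < m) (hK : KILAt N A m)
    {σ : Qb ≃ₐ[ℚ] Qb} (hσ : σ ∈ A.inertiaSubgroupIn ℚ) {f : modularFunctionFieldBar N}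
    (hf : MDiv Qb m f) : SameClass m f (galF N σ f) := by
  obtain ⟨g, hg, rfl⟩ := Subgroup.mem_map.mp hσ
  obtain ⟨c, y₁, y₂, hc, h₁, h₂, hr₁, hr₂, hrel⟩ := exists_intRep N hℓN A hA f.2
    (fun h => hf.1 (Subtype.ext h))
  have hrelσ := congrArg (coeffMap (((g : Qb ≃ₐ[ℚ] Qb) : Qb →+* Qb))) hrel
  rw [map_mul, map_mul, ← incA_galA, ← incA_galA, coeffMap_C] at hrelσ
  set σ : Qb ≃ₐ[ℚ] Qb := (g : Qb ≃ₐ[ℚ] Qb) with hσdef
  have hσc : σ c ≠ 0 := (map_ne_zero σ).2 hc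
  have hCc : (HahnSeries.C c : LaurentSeries Qb) ≠ 0 := fun h =>
    hc (HahnSeries.C_injective (by rw [h, map_zero]))
  refine sameClass_of_KIL hm hK hf (mDiv_galF hf _) (c := σ c / c) (div_ne_zero hσc hc)
    (galA g y₁ * y₂) (galA g y₂ * y₁) ?_ ?_ ?_ ?_ ?_
  · rw [map_mul]; exact mul_mem (incA_galA_mem g h₁) h₂
  · rw [map_mul]; exact mul_mem (incA_galA_mem g h₂) h₁
  · rw [map_mul, map_mul, redA_galA_of_mem_inertia hg, redA_galA_of_mem_inertia hg, mul_comm]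
  · rw [map_mul, redA_galA_of_mem_inertia hg]
    exact mul_ne_zero hr₁ hr₂
  · have e : ((galF N ((A.decompositionSubgroup ℚ).subtype g) f : modularFunctionFieldBar N) :
        LaurentSeries Qb) = coeffMap (σ : Qb →+* Qb) (f : LaurentSeries Qb) := rfl
    rw [e, map_mul, map_mul, map_div₀]
    have h3 : coeffMap (σ : Qb →+* Qb) (f : LaurentSeries Qb) * incA A (galA g y₂)
        = HahnSeries.C (σ c) * incA A (galA g y₁) := hrelσ
    field_simp
    linear_combination (HahnSeries.C c * incA A y₁) * h3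
      - (HahnSeries.C (σ c) * incA A (galA g y₁)) * hrel

/-- **Eichler-Shimura relation on `W_m(ℚ̄, N)`**: `σ² f · f^ℓ ≡ T_ℓ (σ f)` modulo `m`-th powers,
for a Frobenius `σ` at `ℓ ∤ N` (given KIL and the stability of `F` and of `MDiv` under `T_ℓ`). -/
theorem frobenius_sameClass {N : ℕ} [NeZero N] {ℓ : ℕ} [Fact ℓ.Prime] [NeZero ℓ] (hℓN : ¬ ℓ ∣ N)
    {A : ValuationSubring Qb} (hA : A.LiesOverPrime ℓ) {m : ℕ} (hm : 0 < m) (hK : KILAt N A m)
    {ζ : Qbˣ} (hζ : IsPrimitiveRoot ζ ℓ)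
    (hT : ∀ u ∈ modularFunctionFieldBar N, heckeTS ℓ ζ u ∈ modularFunctionFieldBar N)
    {σ : Qb ≃ₐ[ℚ] Qb} (hσ : A.IsFrobeniusAt σ ℓ) {f : modularFunctionFieldBar N}
    (hf : MDiv Qb m f)
    (hTf : MDiv Qb m (⟨_, hT _ (galF N σ f).2⟩ : modularFunctionFieldBar N)) :
    SameClass m (⟨_, hT _ (galF N σ f).2⟩ : modularFunctionFieldBar N)
      (galF N σ (galF N σ f) * f ^ ℓ) := by
  obtain ⟨hdec, hfrob⟩ := hσ
  set g : A.decompositionSubgroup ℚ := ⟨σ, hdec⟩ with hg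
  have hchar : CharP (IsLocalRing.ResidueField A) ℓ := charP_resFieldE Fact.out hA
  obtain ⟨ζA, hζA⟩ := exists_unit_of_pow_eq_one (A := A) (NeZero.ne ℓ) hζ.pow_eq_one
  have hζA1 : ζA ^ ℓ = 1 := by
    apply Units.map_injective (f := (A.subtype : A →* Qb)) Subtype.val_injective
    rw [map_pow, hζA, hζ.pow_eq_one, map_one]
  have hincT : ∀ y : LaurentSeries A, incA A (heckeTS ℓ ζA y) = heckeTS ℓ ζ (incA A y) := by
    intro y
    rw [coeffMap_heckeTS, hζA]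
  obtain ⟨c, y₁, y₂, hc, h₁, h₂, hr₁, hr₂, hrel⟩ := exists_intRep N hℓN A hA f.2
    (fun h => hf.1 (Subtype.ext h))
  have hinc : ∀ y : LaurentSeries A, incA A (galA g y) = coeffMap (σ : Qb →+* Qb) (incA A y) :=
    fun y => incA_galA g y
  have hrelσ := congrArg (coeffMap (σ : Qb →+* Qb)) hrel
  rw [map_mul, map_mul, ← hinc, ← hinc, coeffMap_C] at hrelσ
  have hrelσσ := congrArg (coeffMap (σ : Qb →+* Qb)) hrelσ
  rw [map_mul, map_mul, ← hinc, ← hinc, coeffMap_C] at hrelσσ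
  have hrelT := congrArg (heckeTSHom hζ) hrelσ
  rw [map_mul, map_mul] at hrelT
  simp only [heckeTSHom_apply, heckeTS_C] at hrelT
  have hσc : σ c ≠ 0 := (map_ne_zero σ).2 hc
  have hσσc : σ (σ c) ≠ 0 := (map_ne_zero σ).2 hσc
  have hCne : ∀ a : Qb, a ≠ 0 → (HahnSeries.C a : LaurentSeries Qb) ≠ 0 := fun a ha h =>
    ha (HahnSeries.C_injective (by rw [h, map_zero]))
  have hW : ∀ y : LaurentSeries A, redA A y ≠ 0 → redA A (y ^ ℓ * galA g (galA g y)) ≠ 0 := by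
    intro y hy
    rw [map_mul, map_pow]
    exact mul_ne_zero (pow_ne_zero _ hy) (redA_galA_ne_zero g (redA_galA_ne_zero g hy))
  have hWmem : ∀ y : LaurentSeries A, incA A y ∈ modularFunctionFieldBar N →
      incA A (y ^ ℓ * galA g (galA g y)) ∈ modularFunctionFieldBar N := by
    intro y hy
    rw [map_mul, map_pow]
    exact mul_mem (pow_mem hy _) (incA_galA_mem g (incA_galA_mem g hy))
  have hTmem : ∀ y : LaurentSeries A, incA A y ∈ modularFunctionFieldBar N →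
      incA A (heckeTS ℓ ζA (galA g y)) ∈ modularFunctionFieldBar N := by
    intro y hy
    rw [hincT]
    exact hT _ (incA_galA_mem g hy)
  refine sameClass_of_KIL hm hK hTf ?_ (c := σ (σ c) * c ^ ℓ / (σ c) ^ (ℓ + 1))
    (div_ne_zero (mul_ne_zero hσσc (pow_ne_zero _ hc)) (pow_ne_zero _ hσc))
    ((y₁ ^ ℓ * galA g (galA g y₁)) * heckeTS ℓ ζA (galA g y₂))
    ((y₂ ^ ℓ * galA g (galA g y₂)) * heckeTS ℓ ζA (galA g y₁)) ?_ ?_ ?_ ?_ ?_
  · have h1 := mDiv_galF (mDiv_galF hf σ) σ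
    refine ⟨mul_ne_zero h1.1 (pow_ne_zero _ hf.1), fun v => ?_⟩
    rw [v.ord_mul h1.1 (pow_ne_zero _ hf.1), ← zpow_natCast, v.ord_zpow]
    exact dvd_add (h1.2 v) (Dvd.dvd.mul_left (hf.2 v) _)
  · rw [map_mul]; exact mul_mem (hWmem y₁ h₁) (hTmem y₂ h₂)
  · rw [map_mul]; exact mul_mem (hWmem y₂ h₂) (hTmem y₁ h₁)
  · rw [map_mul (redA A) (y₁ ^ ℓ * galA g (galA g y₁)),
      map_mul (redA A) (y₂ ^ ℓ * galA g (galA g y₂)), redA_heckeTS_galA hζA1 hfrob,
      redA_heckeTS_galA hζA1 hfrob, mul_comm]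
  · rw [map_mul (redA A) (y₁ ^ ℓ * galA g (galA g y₁)), redA_heckeTS_galA hζA1 hfrob]
    exact mul_ne_zero (hW y₁ hr₁) (hW y₂ hr₂)
  · have e : ((galF N σ (galF N σ f) * f ^ ℓ : modularFunctionFieldBar N) : LaurentSeries Qb)
        = coeffMap (σ : Qb →+* Qb) (coeffMap (σ : Qb →+* Qb) (f : LaurentSeries Qb))
          * (f : LaurentSeries Qb) ^ ℓ := rfl
    have e2 : ((galF N σ f : modularFunctionFieldBar N) : LaurentSeries Qb)
        = coeffMap (σ : Qb →+* Qb) (f : LaurentSeries Qb) := rfl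
    rw [e]
    simp only [e2, map_mul, map_pow, hincT, map_div₀]
    have hC1 := hCne _ (pow_ne_zero (ℓ + 1) hσc)
    rw [map_pow] at hC1
    rw [map_pow] at hrelT
    set a := (f : LaurentSeries Qb)
    set F1 := coeffMap (σ : Qb →+* Qb) a
    set F2 := coeffMap (σ : Qb →+* Qb) F1
    set u₁ := incA A y₁
    set u₂ := incA A y₂
    set v₁ := incA A (galA g y₁)
    set v₂ := incA A (galA g y₂)
    set w₁ := incA A (galA g (galA g y₁))
    set w₂ := incA A (galA g (galA g y₂))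
    have hpow : (a * u₂) ^ ℓ = (HahnSeries.C c * u₁) ^ ℓ := by rw [hrel]
    rw [div_mul_eq_mul_div, div_mul_eq_mul_div, eq_div_iff hC1]
    calc F2 * a ^ ℓ * (u₂ ^ ℓ * w₂ * heckeTS ℓ ζ v₁) * HahnSeries.C (σ c) ^ (ℓ + 1)
        = (F2 * w₂) * (a * u₂) ^ ℓ * (HahnSeries.C (σ c) ^ (ℓ + 1) * heckeTS ℓ ζ v₁) := by ring
      _ = (HahnSeries.C (σ (σ c)) * w₁) * (HahnSeries.C c * u₁) ^ ℓ
            * (heckeTS ℓ ζ F1 * heckeTS ℓ ζ v₂) := by rw [hrelσσ, hpow, hrelT]; rfl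
      _ = _ := by ring

end

end Fermat.Agent.ESlib
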