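import Fermat.Agent.ES.B.Defs

/-!
# ES, part E: transport of an action on `W_m(K, F)` to a quotient `Λ / S`

`ThetaRel K m S rel` says that the relation `rel : F → Λ → Prop` is the graph of an isomorphism
`W_m(K, F) = {f : m ∣ div f} / F^{× m} ≃ Λ / S`.  Every ring endomorphism of `F` preserving
`m`-divisibility then induces an endomorphism `ThetaRel.act` of `Λ / S`.
-/

set_option autoImplicit false

open AlgebraicCurve

namespace Fermat.Agent.ESlib

section mdiv

variable {K F : Type*} [Field K] [Field F] [Algebra K F] {m : ℕ}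

theorem MDiv.one' : MDiv K m (1 : F) := ⟨one_ne_zero, fun v => by simp⟩

theorem MDiv.mul' {f g : F} (hf : MDiv K m f) (hg : MDiv K m g) : MDiv K m (f * g) :=
  ⟨mul_ne_zero hf.1 hg.1, fun v => by
    rw [v.ord_mul hf.1 hg.1]; exact dvd_add (hf.2 v) (hg.2 v)⟩

theorem MDiv.inv' {f : F} (hf : MDiv K m f) : MDiv K m f⁻¹ :=
  ⟨inv_ne_zero hf.1, fun v => by rw [v.ord_inv]; exact (dvd_neg).2 (hf.2 v)⟩

theorem MDiv.pow_self' {g : F} (hg : g ≠ 0) : MDiv K m (g ^ m) :=
  ⟨pow_ne_zero _ hg, fun v => by rw [← zpow_natCast, v.ord_zpow]; exact Dvd.intro _ rfl⟩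

theorem MDiv.pow' {f : F} (hf : MDiv K m f) (k : ℕ) : MDiv K m (f ^ k) :=
  ⟨pow_ne_zero _ hf.1, fun v => by
    rw [← zpow_natCast, v.ord_zpow]; exact Dvd.dvd.mul_left (hf.2 v) _⟩

theorem MDiv.of_dvd' {m' : ℕ} (h : m ∣ m') {f : F} (hf : MDiv K m' f) : MDiv K m f :=
  ⟨hf.1, fun v => dvd_trans (Int.natCast_dvd_natCast.2 h) (hf.2 v)⟩

end mdiv

section

variable {K F Λ : Type*} [Field K] [Field F] [Algebra K F] [AddCommGroup Λ]

variable (K) in
/-- `rel` is the graph of an isomorphism `W_m(K, F) ≃ Λ / S` -/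
structure ThetaRel (m : ℕ) (S : Submodule ℤ Λ) (rel : F → Λ → Prop) : Prop where
  exists_right : ∀ {f : F}, MDiv K m f → ∃ x, rel f x
  exists_left : ∀ x : Λ, ∃ f : F, MDiv K m f ∧ rel f x
  mul : ∀ {f g : F} {x y : Λ}, MDiv K m f → MDiv K m g → rel f x → rel g y →
    rel (f * g) (x + y)
  right_iff : ∀ {f : F} {x y : Λ}, MDiv K m f → rel f x → (rel f y ↔ y - x ∈ S)
  zero_iff : ∀ {f : F}, MDiv K m f → (rel f 0 ↔ ∃ g : F, f = g ^ m)

namespace ThetaRel

variable {m : ℕ} {S : Submodule ℤ Λ} {rel : F → Λ → Prop} (h : ThetaRel K m S rel)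

include h

theorem rel_pow {g : F} (hg : g ≠ 0) : rel (g ^ m) 0 :=
  (h.zero_iff (MDiv.pow_self' hg)).2 ⟨g, rfl⟩

theorem sameClass_iff {f g : F} {x y : Λ} (hf : MDiv K m f) (hg : MDiv K m g) (hx : rel f x)
    (hy : rel g y) : SameClass m f g ↔ y - x ∈ S := by
  constructor
  · rintro ⟨u, hu, rfl⟩
    have h1 := h.mul hf (MDiv.pow_self' hu) hx (h.rel_pow hu)
    rw [add_zero] at h1
    exact (h.right_iff hg h1).1 hy
  · intro hxy
    obtain ⟨x', hx'⟩ := h.exists_right hf.inv'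
    have h1 := h.mul hf hf.inv' hx hx'
    rw [mul_inv_cancel₀ hf.1] at h1
    have h2 : rel (1 : F) 0 := by simpa using h.rel_pow (one_ne_zero (α := F))
    have h3 : (0 : Λ) - (x + x') ∈ S := (h.right_iff MDiv.one' h1).1 h2
    have h4 := h.mul hg hf.inv' hy hx'
    have h5 : rel (g * f⁻¹) 0 := by
      refine (h.right_iff (hg.mul' hf.inv') h4).2 ?_
      have : (0 : Λ) - (y + x') = (0 - (x + x')) - (y - x) := by abel
      rw [this]
      exact S.sub_mem h3 hxy
    obtain ⟨u, hu⟩ := (h.zero_iff (hg.mul' hf.inv')).1 h5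
    obtain ⟨u, hu0, hu⟩ : ∃ u : F, u ≠ 0 ∧ g * f⁻¹ = u ^ m := by
      by_cases hu0 : u = 0
      · subst hu0
        by_cases hm : m = 0
        · subst hm
          exact ⟨1, one_ne_zero, by simpa using hu⟩
        · rw [zero_pow hm] at hu
          exact absurd hu (hg.mul' hf.inv').1
      · exact ⟨u, hu0, hu⟩
    refine ⟨u, hu0, ?_⟩
    rw [← hu, mul_comm g, ← mul_assoc, mul_inv_cancel₀ hf.1, one_mul]

/-- a choice of `y` with `[f] ↦ x`, `[s f] ↦ y` -/
noncomputable def actFun (s : F →+* F) (hs : ∀ f, MDiv K m f → MDiv K m (s f)) (x : Λ) : Λ :=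
  (h.exists_right (hs _ (h.exists_left x).choose_spec.1)).choose

theorem mk_actFun (s : F →+* F) (hs : ∀ f, MDiv K m f → MDiv K m (s f)) {f : F} {x y : Λ}
    (hf : MDiv K m f) (hx : rel f x) (hy : rel (s f) y) :
    (Submodule.Quotient.mk (h.actFun s hs x) : Λ ⧸ S) = Submodule.Quotient.mk y := by
  have h1 := (h.exists_left x).choose_spec
  have h2 := (h.exists_right (hs _ h1.1)).choose_spec
  have h3 : SameClass m f (h.exists_left x).choose :=
    (h.sameClass_iff hf h1.1 hx h1.2).2 (by simp)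
  rw [Submodule.Quotient.eq]
  exact (h.sameClass_iff (hs _ hf) (hs _ h1.1) hy h2).1 (h3.map s)

/-- the endomorphism of `Λ / S` induced by `s` -/
noncomputable def act (s : F →+* F) (hs : ∀ f, MDiv K m f → MDiv K m (s f)) :
    Module.End ℤ (Λ ⧸ S) :=
  S.liftQ (AddMonoidHom.toIntLinearMap
    { toFun := fun x => (Submodule.Quotient.mk (h.actFun s hs x) : Λ ⧸ S)
      map_zero' := by
        have h1 : rel (1 : F) 0 := by simpa using h.rel_pow (one_ne_zero (α := F))
        rw [h.mk_actFun s hs MDiv.one' h1 (by rw [map_one]; exact h1)]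
        rfl
      map_add' := by
        intro x₁ x₂
        obtain ⟨f₁, hf₁, hx₁⟩ := h.exists_left x₁
        obtain ⟨f₂, hf₂, hx₂⟩ := h.exists_left x₂
        obtain ⟨y₁, hy₁⟩ := h.exists_right (hs _ hf₁)
        obtain ⟨y₂, hy₂⟩ := h.exists_right (hs _ hf₂)
        rw [h.mk_actFun s hs hf₁ hx₁ hy₁, h.mk_actFun s hs hf₂ hx₂ hy₂,
          h.mk_actFun s hs (hf₁.mul' hf₂) (h.mul hf₁ hf₂ hx₁ hx₂)
            (by rw [map_mul]; exact h.mul (hs _ hf₁) (hs _ hf₂) hy₁ hy₂)]
        rfl }) (by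
    intro x hx
    obtain ⟨f, hf, hfx⟩ := h.exists_left x
    have h0 : rel f 0 := (h.right_iff hf hfx).2 (by simpa using hx)
    obtain ⟨g, rfl⟩ := (h.zero_iff hf).1 h0
    have h1 : rel (s (g ^ m)) 0 := (h.zero_iff (hs _ hf)).2 ⟨s g, map_pow s g m⟩
    rw [LinearMap.mem_ker]
    show (Submodule.Quotient.mk (h.actFun s hs x) : Λ ⧸ S) = 0
    rw [h.mk_actFun s hs hf hfx h1]
    rfl)

theorem act_mk (s : F →+* F) (hs : ∀ f, MDiv K m f → MDiv K m (s f)) {f : F} {x y : Λ}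
    (hf : MDiv K m f) (hx : rel f x) (hy : rel (s f) y) :
    h.act s hs (Submodule.Quotient.mk x) = Submodule.Quotient.mk y :=
  h.mk_actFun s hs hf hx hy

theorem act_mk_iff (s : F →+* F) (hs : ∀ f, MDiv K m f → MDiv K m (s f)) {f : F} {x y : Λ}
    (hf : MDiv K m f) (hx : rel f x) :
    h.act s hs (Submodule.Quotient.mk x) = Submodule.Quotient.mk y ↔ rel (s f) y := by
  refine ⟨fun hy => ?_, h.act_mk s hs hf hx⟩
  obtain ⟨y', hy'⟩ := h.exists_right (hs _ hf)
  rw [h.act_mk s hs hf hx hy', eq_comm, Submodule.Quotient.eq] at hy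
  exact (h.right_iff (hs _ hf) hy').2 hy

theorem rel_of_sameClass {f g : F} {x : Λ} (hf : MDiv K m f) (hx : rel f x)
    (hfg : SameClass m f g) : rel g x := by
  have hg := hf.sameClass hfg
  obtain ⟨y, hy⟩ := h.exists_right hg
  have h1 := (h.sameClass_iff hf hg hx hy).1 hfg
  refine (h.right_iff hg hy).2 ?_
  rw [← neg_sub]
  exact S.neg_mem h1

theorem rel_npow {f : F} {x : Λ} (hf : MDiv K m f) (hx : rel f x) (k : ℕ) :
    rel (f ^ k) (k • x) := by
  induction k with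
  | zero => simpa using h.rel_pow (one_ne_zero (α := F))
  | succ k ih =>
    rw [pow_succ, succ_nsmul]
    exact h.mul (hf.pow' k) hf ih hx

end ThetaRel

end

end Fermat.Agent.ESlib
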