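import Fermat.Agent.ES.E.KILPow
import Fermat.Agent.ES.E.Transport
import Fermat.Agent.ES.D.Iface

/-!
# ES, part E: assembly of the `TateDatum`

`ThetaSys N p` is what Parts A and B provide (over `ℚ̄`): the Betti lattice with its Hecke action, and
for every `n` the graph `rel n` of an isomorphism `W_{p^n}(ℚ̄, N) ≃ Λ / p ^ n Λ`, compatible with the
transition maps and with the formal Hecke operators.  Together with KIL (for the prime exponent `p`)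
this gives the `TateDatum` consumed by Part D.
-/

set_option autoImplicit false

open ModularCurve AlgebraicCurve Fermat.Agent.S28lib

namespace Fermat.Agent.ESlib

open PartD

noncomputable section

/-- what Parts A and B provide -/
structure ThetaSys (N : ℕ) [NeZero N] (p : ℕ) : Type 1 where
  /-- the Betti lattice -/
  Λ : Type
  [instAddCommGroup : AddCommGroup Λ]
  [instFree : Module.Free ℤ Λ]
  [instFinite : Module.Finite ℤ Λ]
  /-- the Hecke action on the lattice -/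
  hecke : FullHecke N →+* Module.End ℤ Λ
  eigen : ∀ lam : FullHecke N →+* ℂ,
    Module.finrank ℂ (⨅ t : FullHecke N, LinearMap.ker
      ((hecke t).baseChange ℂ - lam t • (LinearMap.id : TensorProduct ℤ ℂ Λ →ₗ[ℂ] _))
        : Submodule ℂ (TensorProduct ℤ ℂ Λ)) = 2
  /-- the graph of `W_{p^n}(ℚ̄, N) ≃ Λ / p ^ n` -/
  rel : ℕ → modularFunctionFieldBar N → Λ → Prop
  isTheta : ∀ n, ThetaRel Qb (p ^ n) (powSub Λ p n) (rel n)
  trans : ∀ (n : ℕ) {f : modularFunctionFieldBar N} {x : Λ}, MDiv Qb (p ^ (n + 1)) f →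
    rel (n + 1) f x → rel n f x
  T_mem : ∀ {ℓ : ℕ} [NeZero ℓ], ℓ.Prime → ¬ ℓ ∣ N → ∀ {ζ : Qbˣ}, IsPrimitiveRoot ζ ℓ →
    ∀ u ∈ modularFunctionFieldBar N, heckeTS ℓ ζ u ∈ modularFunctionFieldBar N
  U_mem : ∀ {q : ℕ} [NeZero q], q.Prime → q ∣ N → ∀ {ζ : Qbˣ}, IsPrimitiveRoot ζ q →
    ∀ u ∈ modularFunctionFieldBar N, normU q ζ u ∈ modularFunctionFieldBar N
  T_rel : ∀ (n : ℕ) {ℓ : ℕ} [NeZero ℓ] (hℓ : ℓ.Prime) (hℓN : ¬ ℓ ∣ N) {ζ : Qbˣ}
    (hζ : IsPrimitiveRoot ζ ℓ) {f : modularFunctionFieldBar N} {x : Λ}, MDiv Qb (p ^ n) f →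
    rel n f x →
      MDiv Qb (p ^ n) (⟨_, T_mem hℓ hℓN hζ f f.2⟩ : modularFunctionFieldBar N) ∧
      rel n ⟨_, T_mem hℓ hℓN hζ f f.2⟩
        (hecke (CuspForm.heckeAlgebra.T hℓ hℓN (Set.notMem_empty ℓ)) x)
  U_rel : ∀ (n : ℕ) {q : ℕ} [NeZero q] (hq : q.Prime) (hqN : q ∣ N) {ζ : Qbˣ}
    (hζ : IsPrimitiveRoot ζ q) {f : modularFunctionFieldBar N} {x : Λ}, MDiv Qb (p ^ n) f →
    rel n f x →
      MDiv Qb (p ^ n) (⟨_, U_mem hq hqN hζ f f.2⟩ : modularFunctionFieldBar N) ∧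
      rel n ⟨_, U_mem hq hqN hζ f f.2⟩
        (hecke (CuspForm.heckeAlgebra.U hq hqN (Set.notMem_empty q)) x)

attribute [instance] ThetaSys.instAddCommGroup ThetaSys.instFree ThetaSys.instFinite

theorem galF_one (N : ℕ) (f : modularFunctionFieldBar N) : galF N 1 f = f := by
  have h : arithmeticGalois (modularFunctionFieldFull N) (1 : Qb ≃ₐ[ℚ] Qb) • f = f := by
    rw [map_one, one_smul]
  exact h

theorem galF_mul (N : ℕ) (σ τ : Qb ≃ₐ[ℚ] Qb) (f : modularFunctionFieldBar N) :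
    galF N (σ * τ) f = galF N σ (galF N τ f) := by
  have h : arithmeticGalois (modularFunctionFieldFull N) (σ * τ) • f
      = arithmeticGalois (modularFunctionFieldFull N) σ •
        arithmeticGalois (modularFunctionFieldFull N) τ • f := by
    rw [map_mul, mul_smul]
  exact h

/-- every element of `F_ℚ̄(N)` is defined over a number field -/
theorem exists_finite_level_fix {N : ℕ} {u : LaurentSeries Qb} (hu : u ∈ modularFunctionFieldBar N) :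
    ∃ L : IntermediateField ℚ Qb, FiniteDimensional ℚ L ∧
      ∀ σ : Qb ≃ₐ[ℚ] Qb, (∀ x ∈ L, σ x = x) → coeffMap (σ : Qb →+* Qb) u = u := by
  have hu' := (mem_laurentBaseChange_iff (L := Qb) (F₀ := modularFunctionFieldFull N)).1 hu
  clear hu
  induction hu' using Subfield.closure_induction with
  | mem y hy =>
    rcases hy with ⟨a, rfl⟩ | ⟨z, -, rfl⟩
    · refine ⟨IntermediateField.adjoin ℚ {a},
        IntermediateField.adjoin.finiteDimensional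
          ((AlgebraicClosure.isAlgebraic ℚ).isAlgebraic a).isIntegral,
        fun σ hσ => ?_⟩
      rw [coeffMap_algebraMap]
      exact congrArg _ (hσ a (IntermediateField.mem_adjoin_simple_self ℚ a))
    · exact ⟨⊥, inferInstance, fun σ _ => coeffMap_coeffEmb σ z⟩
  | one => exact ⟨⊥, inferInstance, fun σ _ => map_one _⟩
  | add x y _ _ hx hy =>
    obtain ⟨L₁, h₁, hL₁⟩ := hx
    obtain ⟨L₂, h₂, hL₂⟩ := hy
    refine ⟨L₁ ⊔ L₂, IntermediateField.finiteDimensional_sup L₁ L₂, fun σ hσ => ?_⟩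
    rw [map_add, hL₁ σ fun x hx => hσ x ((le_sup_left : L₁ ≤ L₁ ⊔ L₂) hx),
      hL₂ σ fun x hx => hσ x ((le_sup_right : L₂ ≤ L₁ ⊔ L₂) hx)]
  | neg x _ hx =>
    obtain ⟨L₁, h₁, hL₁⟩ := hx
    exact ⟨L₁, h₁, fun σ hσ => by rw [map_neg, hL₁ σ hσ]⟩
  | inv x _ hx =>
    obtain ⟨L₁, h₁, hL₁⟩ := hx
    exact ⟨L₁, h₁, fun σ hσ => by rw [map_inv₀, hL₁ σ hσ]⟩
  | mul x y _ _ hx hy =>
    obtain ⟨L₁, h₁, hL₁⟩ := hx
    obtain ⟨L₂, h₂, hL₂⟩ := hy
    refine ⟨L₁ ⊔ L₂, IntermediateField.finiteDimensional_sup L₁ L₂, fun σ hσ => ?_⟩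
    rw [map_mul, hL₁ σ fun x hx => hσ x ((le_sup_left : L₁ ≤ L₁ ⊔ L₂) hx),
      hL₂ σ fun x hx => hσ x ((le_sup_right : L₂ ≤ L₁ ⊔ L₂) hx)]

namespace ThetaSys

variable {N : ℕ} [NeZero N] {p : ℕ} (D : ThetaSys N p)

/-- the action of one `σ` on `Λ / p ^ n` -/
def galOne (n : ℕ) (σ : GQ) : Module.End ℤ (D.Λ ⧸ powSub D.Λ p n) :=
  (D.isTheta n).act (galF N σ).toRingHom (fun _ hf => mDiv_galF hf σ)

theorem galOne_mk_iff (n : ℕ) (σ : GQ) {f : modularFunctionFieldBar N} {x y : D.Λ}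
    (hf : MDiv Qb (p ^ n) f) (hx : D.rel n f x) :
    D.galOne n σ (Submodule.Quotient.mk x) = Submodule.Quotient.mk y ↔ D.rel n (galF N σ f) y :=
  (D.isTheta n).act_mk_iff _ _ hf hx

/-- the Galois action on `Λ / p ^ n` -/
def gal (n : ℕ) : GQ →* Module.End ℤ (D.Λ ⧸ powSub D.Λ p n) where
  toFun σ := D.galOne n σ
  map_one' := by
    refine LinearMap.ext fun X => ?_
    obtain ⟨x, rfl⟩ := Submodule.Quotient.mk_surjective _ X
    obtain ⟨f, hf, hx⟩ := (D.isTheta n).exists_left x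
    refine (D.galOne_mk_iff n 1 hf hx).2 ?_
    rw [galF_one]
    exact hx
  map_mul' σ τ := by
    refine LinearMap.ext fun X => ?_
    obtain ⟨x, rfl⟩ := Submodule.Quotient.mk_surjective _ X
    obtain ⟨f, hf, hx⟩ := (D.isTheta n).exists_left x
    obtain ⟨y, hy⟩ := (D.isTheta n).exists_right (mDiv_galF hf τ)
    obtain ⟨z, hz⟩ := (D.isTheta n).exists_right (mDiv_galF (mDiv_galF hf τ) σ)
    rw [Module.End.mul_apply, (D.galOne_mk_iff n τ hf hx).2 hy,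
      (D.galOne_mk_iff n σ (mDiv_galF hf τ) hy).2 hz]
    refine (D.galOne_mk_iff n (σ * τ) hf hx).2 ?_
    rw [galF_mul]
    exact hz

theorem gal_mk_iff (n : ℕ) (σ : GQ) {f : modularFunctionFieldBar N} {x y : D.Λ}
    (hf : MDiv Qb (p ^ n) f) (hx : D.rel n f x) :
    D.gal n σ (Submodule.Quotient.mk x) = Submodule.Quotient.mk y ↔ D.rel n (galF N σ f) y :=
  D.galOne_mk_iff n σ hf hx

theorem gal_compat (n : ℕ) (σ : GQ) (x y : D.Λ)
    (h : D.gal (n + 1) σ (Submodule.Quotient.mk x) = Submodule.Quotient.mk y) :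
    D.gal n σ (Submodule.Quotient.mk x) = Submodule.Quotient.mk y := by
  obtain ⟨f, hf, hx⟩ := (D.isTheta (n + 1)).exists_left x
  have hy := (D.gal_mk_iff (n + 1) σ hf hx).1 h
  have hf' : MDiv Qb (p ^ n) f := hf.of_dvd' (pow_dvd_pow p (Nat.le_succ n))
  exact (D.gal_mk_iff n σ hf' (D.trans n hf hx)).2 (D.trans n (mDiv_galF hf σ) hy)

theorem exists_primitiveRoot_Qb (ℓ : ℕ) [NeZero ℓ] : ∃ ζ : Qbˣ, IsPrimitiveRoot ζ ℓ := by
  have : NeZero (ℓ : Qb) := ⟨by exact_mod_cast NeZero.ne ℓ⟩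
  obtain ⟨ζ, hζ⟩ := HasEnoughRootsOfUnity.exists_primitiveRoot Qb ℓ
  exact ⟨(hζ.isUnit (NeZero.ne ℓ)).unit, by
    rw [← IsPrimitiveRoot.coe_units_iff]; simpa using hζ⟩

theorem gal_hecke_T (n : ℕ) (σ : GQ) {ℓ : ℕ} (hℓ : ℓ.Prime) (hℓN : ¬ ℓ ∣ N) (x y : D.Λ)
    (h : D.gal n σ (Submodule.Quotient.mk x) = Submodule.Quotient.mk y) :
    D.gal n σ (Submodule.Quotient.mk
        (D.hecke (CuspForm.heckeAlgebra.T hℓ hℓN (Set.notMem_empty ℓ)) x))
      = Submodule.Quotient.mk (D.hecke (CuspForm.heckeAlgebra.T hℓ hℓN (Set.notMem_empty ℓ)) y) := by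
  have : NeZero ℓ := ⟨hℓ.ne_zero⟩
  obtain ⟨ζ, hζ⟩ := exists_primitiveRoot_Qb ℓ
  obtain ⟨f, hf, hx⟩ := (D.isTheta n).exists_left x
  have hy := (D.gal_mk_iff n σ hf hx).1 h
  obtain ⟨h1, h2⟩ := D.T_rel n hℓ hℓN hζ hf hx
  obtain ⟨-, h4⟩ := D.T_rel n hℓ hℓN hζ (mDiv_galF hf σ) hy
  refine (D.gal_mk_iff n σ h1 h2).2 ?_
  have e : galF N σ ⟨_, D.T_mem hℓ hℓN hζ f f.2⟩
      = ⟨_, D.T_mem hℓ hℓN hζ (galF N σ f) (galF N σ f).2⟩ :=
    Subtype.ext (coeffMap_heckeTS_of_injective (σ : Qb →+* Qb) σ.injective hζ hζ _)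
  rw [e]
  exact h4

theorem gal_hecke_U (n : ℕ) (σ : GQ) {q : ℕ} (hq : q.Prime) (hqN : q ∣ N) (x y : D.Λ)
    (h : D.gal n σ (Submodule.Quotient.mk x) = Submodule.Quotient.mk y) :
    D.gal n σ (Submodule.Quotient.mk
        (D.hecke (CuspForm.heckeAlgebra.U hq hqN (Set.notMem_empty q)) x))
      = Submodule.Quotient.mk (D.hecke (CuspForm.heckeAlgebra.U hq hqN (Set.notMem_empty q)) y) := by
  have : NeZero q := ⟨hq.ne_zero⟩
  obtain ⟨ζ, hζ⟩ := exists_primitiveRoot_Qb q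
  obtain ⟨f, hf, hx⟩ := (D.isTheta n).exists_left x
  have hy := (D.gal_mk_iff n σ hf hx).1 h
  obtain ⟨h1, h2⟩ := D.U_rel n hq hqN hζ hf hx
  obtain ⟨-, h4⟩ := D.U_rel n hq hqN hζ (mDiv_galF hf σ) hy
  refine (D.gal_mk_iff n σ h1 h2).2 ?_
  have e : galF N σ ⟨_, D.U_mem hq hqN hζ f f.2⟩
      = ⟨_, D.U_mem hq hqN hζ (galF N σ f) (galF N σ f).2⟩ :=
    Subtype.ext (coeffMap_normU_of_injective (σ : Qb →+* Qb) σ.injective hζ hζ _)
  rw [e]
  exact h4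

theorem gal_hecke (n : ℕ) (σ : GQ) (t : FullHecke N) : ∀ x y : D.Λ,
    D.gal n σ (Submodule.Quotient.mk x) = Submodule.Quotient.mk y →
    D.gal n σ (Submodule.Quotient.mk (D.hecke t x)) = Submodule.Quotient.mk (D.hecke t y) := by
  obtain ⟨t, ht⟩ := t
  induction ht using Algebra.adjoin_induction with
  | mem t ht =>
    rcases ht with ⟨ℓ, hℓ, hℓN, -, rfl⟩ | ⟨q, hqN, hq, -, rfl⟩
    · exact D.gal_hecke_T n σ hℓ hℓN
    · exact D.gal_hecke_U n σ hq hqN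
  | algebraMap r =>
    intro x y h
    have e : (⟨algebraMap ℤ _ r, Subalgebra.algebraMap_mem _ r⟩ : FullHecke N)
        = ((r : ℤ) : FullHecke N) := by
      apply Subtype.ext
      simp
    rw [e, map_intCast]
    have e2 : ∀ w : D.Λ, ((r : ℤ) : Module.End ℤ D.Λ) w = r • w := fun w => by
      rw [← zsmul_one, LinearMap.smul_apply, Module.End.one_apply]
    rw [e2, e2, Submodule.Quotient.mk_smul, Submodule.Quotient.mk_smul, map_smul, h]
  | add a b ha hb iha ihb =>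
    intro x y h
    have e : (⟨a + b, add_mem ha hb⟩ : FullHecke N) = ⟨a, ha⟩ + ⟨b, hb⟩ := rfl
    rw [e, map_add, LinearMap.add_apply, LinearMap.add_apply, Submodule.Quotient.mk_add,
      Submodule.Quotient.mk_add, map_add, iha x y h, ihb x y h]
  | mul a b ha hb iha ihb =>
    intro x y h
    have e : (⟨a * b, mul_mem ha hb⟩ : FullHecke N) = ⟨a, ha⟩ * ⟨b, hb⟩ := rfl
    rw [e, map_mul, Module.End.mul_apply, Module.End.mul_apply]
    exact iha _ _ (ihb x y h)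

theorem gal_finite (n : ℕ) : GaloisFactorsThroughFiniteLevel (D.gal n) := by
  classical
  obtain ⟨s, hs⟩ := (Module.Finite.fg_top : (⊤ : Submodule ℤ D.Λ).FG)
  have key : ∀ t : Finset D.Λ, ∃ L : IntermediateField ℚ Qb, FiniteDimensional ℚ L ∧
      ∀ σ : GQ, (∀ x ∈ L, σ x = x) → ∀ x ∈ t,
        D.gal n σ (Submodule.Quotient.mk x) = Submodule.Quotient.mk x := by
    intro t
    induction t using Finset.induction_on with
    | empty => exact ⟨⊥, inferInstance, fun σ _ x hx => absurd hx (Finset.notMem_empty x)⟩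
    | insert a t _ ih =>
      obtain ⟨L₁, h₁, hL₁⟩ := ih
      obtain ⟨f, hf, hx⟩ := (D.isTheta n).exists_left a
      obtain ⟨L₂, h₂, hL₂⟩ := exists_finite_level_fix f.2
      refine ⟨L₁ ⊔ L₂, IntermediateField.finiteDimensional_sup L₁ L₂, fun σ hσ x hxt => ?_⟩
      rcases Finset.mem_insert.1 hxt with rfl | hxt
      · refine (D.gal_mk_iff n σ hf hx).2 ?_
        have e : galF N σ f = f :=
          Subtype.ext (hL₂ σ fun x hx => hσ x ((le_sup_right : L₂ ≤ L₁ ⊔ L₂) hx))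
        rw [e]
        exact hx
      · exact hL₁ σ (fun x hx => hσ x ((le_sup_left : L₁ ≤ L₁ ⊔ L₂) hx)) x hxt
  obtain ⟨L, hL, hLs⟩ := key s
  refine ⟨L, hL, fun σ hσ => ?_⟩
  have h1 : (D.gal n σ).comp (powSub D.Λ p n).mkQ = (powSub D.Λ p n).mkQ :=
    LinearMap.ext_on hs (fun x hx => hLs σ hσ x hx)
  refine LinearMap.ext fun X => ?_
  obtain ⟨x, rfl⟩ := Submodule.Quotient.mk_surjective _ X
  exact congrArg (fun g => g x) h1

theorem gal_unram (hp : 0 < p) (n : ℕ) {ℓ : ℕ} (hℓ : ℓ.Prime) (hℓN : ¬ ℓ ∣ N)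
    {A : ValuationSubring Qb} (hA : A.LiesOverPrime ℓ) (hK : KILAt N A p)
    {σ : GQ} (hσ : σ ∈ A.inertiaSubgroupIn ℚ) : D.gal n σ = 1 := by
  have : Fact ℓ.Prime := ⟨hℓ⟩
  refine LinearMap.ext fun X => ?_
  obtain ⟨x, rfl⟩ := Submodule.Quotient.mk_surjective _ X
  obtain ⟨f, hf, hx⟩ := (D.isTheta n).exists_left x
  refine (D.gal_mk_iff n σ hf hx).2 ?_
  exact (D.isTheta n).rel_of_sameClass hf hx
    (inertia_sameClass hℓN hA (pow_pos hp n) (KILAt.pow hℓN hA hp hK n) hσ hf)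

theorem gal_frob (hp : 0 < p) (n : ℕ) {ℓ : ℕ} (hℓ : ℓ.Prime) (hℓN : ¬ ℓ ∣ N)
    {A : ValuationSubring Qb} (hA : A.LiesOverPrime ℓ) (hK : KILAt N A p)
    {σ : GQ} (hσ : A.IsFrobeniusAt σ ℓ) (x y z : D.Λ)
    (hxy : D.gal n σ (Submodule.Quotient.mk x) = Submodule.Quotient.mk y)
    (hyz : D.gal n σ (Submodule.Quotient.mk y) = Submodule.Quotient.mk z) :
    z - D.hecke (CuspForm.heckeAlgebra.T hℓ hℓN (Set.notMem_empty ℓ)) y + (ℓ : ℤ) • x
      ∈ powSub D.Λ p n := by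
  have : Fact ℓ.Prime := ⟨hℓ⟩
  have : NeZero ℓ := ⟨hℓ.ne_zero⟩
  obtain ⟨ζ, hζ⟩ := exists_primitiveRoot_Qb ℓ
  obtain ⟨f, hf, hx⟩ := (D.isTheta n).exists_left x
  have hy := (D.gal_mk_iff n σ hf hx).1 hxy
  have hz := (D.gal_mk_iff n σ (mDiv_galF hf σ) hy).1 hyz
  obtain ⟨h1, h2⟩ := D.T_rel n hℓ hℓN hζ (mDiv_galF hf σ) hy
  have h3 := frobenius_sameClass hℓN hA (pow_pos hp n) (KILAt.pow hℓN hA hp hK n) hζ
    (D.T_mem hℓ hℓN hζ) hσ hf h1
  have h4 : D.rel n (galF N σ (galF N σ f) * f ^ ℓ) (z + ℓ • x) :=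
    (D.isTheta n).mul (mDiv_galF (mDiv_galF hf σ) σ) (hf.pow' ℓ) hz
      ((D.isTheta n).rel_npow hf hx ℓ)
  have h5 := ((D.isTheta n).sameClass_iff h1
    ((mDiv_galF (mDiv_galF hf σ) σ).mul' (hf.pow' ℓ)) h2 h4).1 h3
  have e : z - D.hecke (CuspForm.heckeAlgebra.T hℓ hℓN (Set.notMem_empty ℓ)) y + (ℓ : ℤ) • x
      = z + ℓ • x - D.hecke (CuspForm.heckeAlgebra.T hℓ hℓN (Set.notMem_empty ℓ)) y := by
    rw [natCast_zsmul]
    abel
  rw [e]
  exact h5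

/-- **The Tate datum**, from the comparison isomorphisms and KIL for the exponent `p`. -/
def tateDatum (hp : 0 < p)
    (hK : ∀ ℓ : ℕ, ℓ.Prime → ¬ ℓ ∣ N → ℓ ≠ p → ∀ A : ValuationSubring Qb, A.LiesOverPrime ℓ →
      KILAt N A p) : TateDatum N p where
  Λ := D.Λ
  hecke := D.hecke
  eigen := D.eigen
  gal := D.gal
  gal_compat := D.gal_compat
  gal_hecke := fun n σ t x y => D.gal_hecke n σ t x y
  gal_finite := D.gal_finite
  gal_unram := fun n ℓ hℓ hℓN hℓp A hA _ hσ => D.gal_unram hp n hℓ hℓN hA (hK ℓ hℓ hℓN hℓp A hA) hσ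
  gal_frob := fun n ℓ hℓ hℓN hℓp A hA _ hσ x y z hxy hyz =>
    D.gal_frob hp n hℓ hℓN hA (hK ℓ hℓ hℓN hℓp A hA) hσ x y z hxy hyz

end ThetaSys

end

end Fermat.Agent.ESlib
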