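import Fermat.Agent.ES.E.Reduce
import Fermat.Agent.S28.Key
import Fermat.Prelude.Def_ModularCurve_ArithmeticGalois

/-!
# ES, part E: integral representation of the elements of `F_{ℚ̄}(N)`

Every nonzero `f ∈ F_{ℚ̄}(N)` is `c * y₁ / y₂` with a constant `c` and `y₁ y₂ ∈ A((q)) ∩ F` of
nonzero reduction (`ℓ ∤ N`).
-/

set_option autoImplicit false

open ModularCurve Fermat.Agent.S28lib Polynomial

namespace Fermat.Agent.ESlib

noncomputable section

/-- the two descriptions of the function field over a field of characteristic zero -/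
theorem laurentBaseChange_full_eq (L : Type*) [Field L] [Algebra ℚ L] (N : ℕ) :
    laurentBaseChange L (modularFunctionFieldFull N) = modularFunctionFieldFullC L N := by
  apply le_antisymm
  · rw [laurentBaseChange, IntermediateField.adjoin_le_iff]
    rintro _ ⟨x, hx, rfl⟩
    exact coeffMap_mem_full (algebraMap ℚ L) N hx
  · rw [modularFunctionFieldFullC, IntermediateField.adjoin_le_iff]
    rintro _ ⟨d, hd, hdN, rfl⟩
    have h := coeffEmb_mem_laurentBaseChange L (jqModCd_mem_full ℚ N hdN)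
    rwa [coeffEmb, coeffMap_qExpand, coeffMap_jqModC] at h

/-- scaling a finite family of polynomials to a primitive family over `A` -/
theorem exists_scale_family {ι : Type*} [Finite ι] (A : ValuationSubring Qb) (Q : ι → Qb[X])
    (hQ : ∃ i, Q i ≠ 0) :
    ∃ (c : Qb) (Q' : ι → (A : Type)[X]), c ≠ 0 ∧ (∀ i, (Q' i).map A.subtype = C c * Q i) ∧
      ∃ i, (Q' i).map (IsLocalRing.residue A) ≠ 0 := by
  classical
  have := Fintype.ofFinite ι
  set S : Finset (Σ _ : ι, ℕ) := Finset.univ.sigma (fun i => (Q i).support) with hS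
  have hSne : S.Nonempty := by
    obtain ⟨i, hi⟩ := hQ
    obtain ⟨n, hn⟩ := Polynomial.nonempty_support_iff.2 hi
    exact ⟨⟨i, n⟩, Finset.mem_sigma.2 ⟨Finset.mem_univ _, hn⟩⟩
  obtain ⟨⟨i₀, n₀⟩, h₀, hmax⟩ := S.exists_max_image
    (fun x => A.valuation ((Q x.1).coeff x.2)) hSne
  have ha₀ : (Q i₀).coeff n₀ ≠ 0 := Polynomial.mem_support_iff.1 (Finset.mem_sigma.1 h₀).2
  set c : Qb := ((Q i₀).coeff n₀)⁻¹ with hc
  have hc0 : c ≠ 0 := inv_ne_zero ha₀
  have hmem : ∀ i n, c * (Q i).coeff n ∈ A := by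
    intro i n
    by_cases h : (Q i).coeff n = 0
    · rw [h, mul_zero]; exact A.zero_mem
    · have h1 := hmax ⟨i, n⟩ (Finset.mem_sigma.2 ⟨Finset.mem_univ _, Polynomial.mem_support_iff.2 h⟩)
      rw [← A.valuation_le_one_iff, map_mul, hc, map_inv₀]
      have hv : A.valuation ((Q i₀).coeff n₀) ≠ 0 := (A.valuation.ne_zero_iff).2 ha₀
      rw [inv_mul_le_iff₀ (zero_lt_iff.2 hv), mul_one]
      exact h1
  have hlift : ∀ i, ∃ q : (A : Type)[X], q.map A.subtype = C c * Q i := by
    intro i
    rw [← Polynomial.mem_lifts, Polynomial.lifts_iff_coeff_lifts]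
    intro n
    rw [Polynomial.coeff_C_mul]
    exact ⟨⟨_, hmem i n⟩, rfl⟩
  choose Q' hQ' using hlift
  refine ⟨c, Q', hc0, hQ', i₀, fun h => ?_⟩
  have h1 := congrArg (fun p => Polynomial.coeff p n₀) h
  simp only [Polynomial.coeff_map, Polynomial.coeff_zero] at h1
  have h2 : (Q' i₀).coeff n₀ = 1 := by
    apply Subtype.ext
    have h3 := congrArg (fun p => Polynomial.coeff p n₀) (hQ' i₀)
    simp only [Polynomial.coeff_map, Polynomial.coeff_C_mul] at h3
    rw [hc, inv_mul_cancel₀ ha₀] at h3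
    exact h3
  rw [h2, map_one] at h1
  exact one_ne_zero h1

theorem coeffMap_intCast_mem_full (K : Type*) [Field K] (N : ℕ) {b : LaurentSeries ℤ}
    (hb : b ∈ Algebra.adjoin ℤ (jSet ℤ N)) :
    coeffMap (Int.castRingHom K) b ∈ modularFunctionFieldFullC K N := by
  induction hb using Algebra.adjoin_induction with
  | mem x hx =>
    obtain ⟨d, hd0, hd, rfl⟩ := hx
    rw [coeffMap_qExpand, coeffMap_jqModC]
    exact jqModCd_mem_full K N hd
  | algebraMap a =>
    rw [eq_intCast, map_intCast]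
    exact intCast_mem _ a
  | add x y _ _ hx hy => rw [map_add]; exact add_mem hx hy
  | mul x y _ _ hx hy => rw [map_mul]; exact mul_mem hx hy

theorem evY_jA_mem_full (K : Type*) [Field K] (N : ℕ) (P : K[X]) :
    evY K (jA K) P ∈ modularFunctionFieldFullC K N := by
  induction P using Polynomial.induction_on with
  | C a =>
    rw [evY_C, HahnSeries.C_apply, ← algebraMap_laurentSeries_eq_single]
    exact (modularFunctionFieldFullC K N).algebraMap_mem a
  | add p q hp hq => rw [map_add]; exact add_mem hp hq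
  | monomial n a h =>
    rw [pow_succ, ← mul_assoc, map_mul, evY_X]
    exact mul_mem h (jqModC_mem_full K N)

/-- **Integral representation.** -/
theorem exists_intRep (N : ℕ) [NeZero N] {ℓ : ℕ} [Fact ℓ.Prime] (hℓN : ¬ ℓ ∣ N)
    (A : ValuationSubring Qb) (hA : A.LiesOverPrime ℓ) {f : LaurentSeries Qb}
    (hfF : f ∈ modularFunctionFieldBar N) (hf : f ≠ 0) :
    ∃ (c : Qb) (y₁ y₂ : LaurentSeries A), c ≠ 0 ∧ incA A y₁ ∈ modularFunctionFieldBar N ∧
      incA A y₂ ∈ modularFunctionFieldBar N ∧ redA A y₁ ≠ 0 ∧ redA A y₂ ≠ 0 ∧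
      f * incA A y₂ = HahnSeries.C c * incA A y₁ := by
  have hchar : CharP (IsLocalRing.ResidueField A) ℓ := charP_resFieldE Fact.out hA
  let _ : Algebra (ZMod ℓ) (IsLocalRing.ResidueField A) := ZMod.algebra _ ℓ
  obtain ⟨b, hb, hind⟩ := key_charL N ℓ hℓN
  -- independence over the residue field
  have hindκ : JIndep (IsLocalRing.ResidueField A)
      (fun i => coeffMap (Int.castRingHom (IsLocalRing.ResidueField A)) (b i)) := by
    have h := (JIndep.map_iff (algebraMap (ZMod ℓ) (IsLocalRing.ResidueField A)) _).2 hind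
    have e : (fun i => coeffMap (algebraMap (ZMod ℓ) (IsLocalRing.ResidueField A))
        (coeffMap (Int.castRingHom (ZMod ℓ)) (b i))) =
        fun i => coeffMap (Int.castRingHom (IsLocalRing.ResidueField A)) (b i) := by
      funext i
      rw [coeffMap_coeffMap]
      exact coeffMap_congr (RingHom.ext_int _ _) _
    rw [e] at h
    exact h
  set bA : Fin (dedekindPsi N) → LaurentSeries A := fun i => coeffMap (Int.castRingHom A) (b i)
    with hbA
  have hinc : ∀ i, incA A (bA i) = coeffMap (Int.castRingHom Qb) (b i) := fun i => by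
    rw [hbA, coeffMap_coeffMap]
    exact coeffMap_congr (RingHom.ext_int _ _) _
  have hred : ∀ i, redA A (bA i) = coeffMap (Int.castRingHom (IsLocalRing.ResidueField A)) (b i) :=
    fun i => by
      rw [hbA, coeffMap_coeffMap]
      exact coeffMap_congr (RingHom.ext_int _ _) _
  -- reduction of a primitive combination is nonzero
  have hne : ∀ Q' : Fin (dedekindPsi N) → (A : Type)[X],
      (∃ i, (Q' i).map (IsLocalRing.residue A) ≠ 0) →
      redA A (∑ i, evY A (jA A) (Q' i) * bA i) ≠ 0 := by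
    intro Q' ⟨i, hi⟩ h0
    apply hi
    refine hindκ (fun i => (Q' i).map (IsLocalRing.residue A)) ?_ i
    rw [← h0, map_sum]
    refine Finset.sum_congr rfl fun i _ => ?_
    rw [map_mul, coeffMap_evY, coeffMap_jqModC, hred]
  have hincsum : ∀ (c : Qb) (Q : Fin (dedekindPsi N) → Qb[X]) (Q' : Fin (dedekindPsi N) → (A : Type)[X]),
      (∀ i, (Q' i).map A.subtype = C c * Q i) →
      incA A (∑ i, evY A (jA A) (Q' i) * bA i) = HahnSeries.C c *
        ∑ i, evY Qb (jA Qb) (Q i) * coeffMap (Int.castRingHom Qb) (b i) := by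
    intro c Q Q' h
    rw [map_sum, Finset.mul_sum]
    refine Finset.sum_congr rfl fun i _ => ?_
    rw [map_mul, coeffMap_evY, coeffMap_jqModC, hinc, h, map_mul, evY_C, mul_assoc]
  rw [modularFunctionFieldBar, laurentBaseChange_full_eq] at hfF ⊢
  -- a linear relation
  set x' : Fin (dedekindPsi N + 1) → LaurentSeries Qb :=
    Fin.cons f (fun i => coeffMap (Int.castRingHom Qb) (b i)) with hx'
  have hx'F : ∀ i, x' i ∈ modularFunctionFieldFullC Qb N := by
    intro i
    refine Fin.cases ?_ (fun i => ?_) i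
    · simpa [hx'] using hfF
    · simpa [hx'] using coeffMap_intCast_mem_full Qb N (hb i)
  have hnot : ¬ JIndep Qb x' := fun h => by
    have := card_le_of_JIndep (K := Qb) N (Nat.cast_ne_zero.mpr (NeZero.ne N))
      (fun p hp _ => by
        have : NeZero p := ⟨hp.ne_zero⟩
        obtain ⟨D⟩ := nonempty_modData_rat (nonempty_modData_complex hp)
        exact ⟨D.map (algebraMap ℚ Qb)⟩) x' hx'F h
    omega
  unfold JIndep at hnot
  push Not at hnot
  obtain ⟨P, hsum, hP⟩ := hnot
  rw [Fin.sum_univ_succ] at hsum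
  simp only [hx', Fin.cons_zero, Fin.cons_succ] at hsum
  -- the family `P (i+1)` is not identically zero
  have hQne : ∃ i : Fin (dedekindPsi N), P i.succ ≠ 0 := by
    by_contra hall
    push Not at hall
    simp only [hall, map_zero, zero_mul, Finset.sum_const_zero, add_zero] at hsum
    have hP0 : P 0 = 0 := by
      rcases mul_eq_zero.1 hsum with h | h
      · exact evY_jA_injective (by rw [h, map_zero])
      · exact absurd h hf
    obtain ⟨i, hi⟩ := hP
    exact Fin.cases (fun h => h hP0) (fun i h => h (hall i)) i hi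
  obtain ⟨c₁, Q', hc₁, hQ', hprim₁⟩ := exists_scale_family A (fun i => P (Fin.succ i)) hQne
  have hy₁ := hincsum c₁ _ Q' hQ'
  -- `P 0 ≠ 0`
  have hP0 : P 0 ≠ 0 := by
    intro h0
    rw [h0, map_zero, zero_mul, zero_add] at hsum
    rw [hsum, mul_zero] at hy₁
    apply hne Q' hprim₁
    rw [incA_injective A (hy₁.trans (map_zero _).symm), map_zero]
  obtain ⟨c₂, P', hc₂, hP', hprim₂⟩ := exists_scale_family A (fun _ : Unit => P 0) ⟨(), hP0⟩
  have hy₂ : incA A (evY A (jA A) (P' ())) = HahnSeries.C c₂ * evY Qb (jA Qb) (P 0) := by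
    rw [coeffMap_evY, coeffMap_jqModC, hP', map_mul, evY_C]
  have hCc₁ : (HahnSeries.C c₁ : LaurentSeries Qb) ≠ 0 := by
    intro h
    exact hc₁ (HahnSeries.C_injective (by rw [h, map_zero]))
  refine ⟨-(c₂ * c₁⁻¹), ∑ i, evY A (jA A) (Q' i) * bA i, evY A (jA A) (P' ()),
    neg_ne_zero.2 (mul_ne_zero hc₂ (inv_ne_zero hc₁)), ?_, ?_, hne Q' hprim₁, ?_, ?_⟩
  · rw [hy₁]
    refine mul_mem ?_ (sum_mem fun i _ => mul_mem (evY_jA_mem_full Qb N _)
      (coeffMap_intCast_mem_full Qb N (hb i)))
    rw [← evY_C (jA Qb)]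
    exact evY_jA_mem_full Qb N _
  · rw [hy₂, ← evY_C (jA Qb), ← map_mul]
    exact evY_jA_mem_full Qb N _
  · obtain ⟨u, hu⟩ := hprim₂
    rw [coeffMap_evY, coeffMap_jqModC]
    intro h
    exact hu (evY_jA_injective (by rw [h, map_zero]))
  · rw [hy₁, hy₂, map_neg, map_mul, map_inv₀]
    have h1 : ∑ i, evY Qb (jA Qb) (P (Fin.succ i)) * coeffMap (Int.castRingHom Qb) (b i)
        = - (evY Qb (jA Qb) (P 0) * f) := by
      linear_combination hsum
    rw [h1]
    field_simp

end

end Fermat.Agent.ESlib
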