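import Fermat.Agent.ES.E.Main

/-!
# ES, part E: the key injectivity lemma for a product of exponents

`KILAt N A a` and `KILAt N A b` imply `KILAt N A (a * b)`; in particular KIL for a prime `p` implies
KIL for all powers of `p`.
-/

set_option autoImplicit false

open ModularCurve AlgebraicCurve Fermat.Agent.S28lib

namespace Fermat.Agent.ESlib

noncomputable section

theorem isUnit_of_redA_C_mul_ne_zero {A : ValuationSubring Qb} {d : A} {v : LaurentSeries A}
    (h : redA A (HahnSeries.C d * v) ≠ 0) : IsUnit d := by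
  by_contra hnu
  apply h
  rw [map_mul, coeffMap_C,
    (IsLocalRing.residue_eq_zero_iff _).2 ((IsLocalRing.mem_maximalIdeal _).2 hnu), map_zero,
    zero_mul]

/-- two integral series with nonzero reductions which are proportional differ by a unit of `A` -/
theorem exists_unit_of_scale {A : ValuationSubring Qb} {u v : LaurentSeries A}
    (hu : redA A u ≠ 0) (hv : redA A v ≠ 0) {d : Qb}
    (h : incA A u = HahnSeries.C d * incA A v) : ∃ dA : Aˣ, ((dA : A) : Qb) = d := by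
  rcases A.mem_or_inv_mem d with hd | hd
  · have h1 : u = HahnSeries.C (⟨d, hd⟩ : A) * v := by
      apply incA_injective A
      rw [map_mul, h, coeffMap_C]
      rfl
    obtain ⟨dA, hdA⟩ := isUnit_of_redA_C_mul_ne_zero (h1 ▸ hu)
    exact ⟨dA, by rw [hdA]⟩
  · have hd0 : d ≠ 0 := by
      rintro rfl
      rw [map_zero, zero_mul] at h
      exact redA_ne_zero_imp hu h
    have h1 : v = HahnSeries.C (⟨d⁻¹, hd⟩ : A) * u := by
      apply incA_injective A
      rw [map_mul, h, coeffMap_C]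
      show _ = HahnSeries.C d⁻¹ * _
      rw [← mul_assoc, ← map_mul, inv_mul_cancel₀ hd0, map_one, one_mul]
    obtain ⟨eA, heA⟩ := isUnit_of_redA_C_mul_ne_zero (h1 ▸ hv)
    refine ⟨eA⁻¹, ?_⟩
    have h2 : ((eA⁻¹ : Aˣ) : A) * (eA : A) = 1 := by simp
    have h3 := congrArg (fun x : A => (x : Qb)) h2
    simp only [heA] at h3
    have h4 : (((eA⁻¹ : Aˣ) : A) : Qb) * d⁻¹ = 1 := h3
    field_simp at h4
    exact h4

theorem exists_unit_of_pow_unit {A : ValuationSubring Qb} {c : Qb} {a : ℕ} (ha : 0 < a)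
    (dA : Aˣ) (h : c ^ a = ((dA : A) : Qb)) : ∃ cA : Aˣ, ((cA : A) : Qb) = c := by
  rcases A.mem_or_inv_mem c with hc | hc
  · have h1 : (⟨c, hc⟩ : A) ^ a = dA := Subtype.ext h
    have h2 : IsUnit (⟨c, hc⟩ : A) := (isUnit_pow_iff ha.ne').1 (h1 ▸ dA.isUnit)
    obtain ⟨cA, hcA⟩ := h2
    exact ⟨cA, by rw [hcA]⟩
  · have h1 : (⟨c⁻¹, hc⟩ : A) ^ a * dA = 1 := by
      apply Subtype.ext
      show (c⁻¹) ^ a * ((dA : A) : Qb) = 1
      rw [← h, ← mul_pow, inv_mul_cancel₀, one_pow]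
      rintro rfl
      rw [zero_pow ha.ne'] at h
      exact dA.ne_zero (Subtype.ext h.symm)
    have h2 : IsUnit (⟨c⁻¹, hc⟩ : A) :=
      (isUnit_pow_iff ha.ne').1 (IsUnit.of_mul_eq_one _ h1)
    obtain ⟨eA, heA⟩ := h2
    refine ⟨eA⁻¹, ?_⟩
    have h2 : ((eA⁻¹ : Aˣ) : A) * (eA : A) = 1 := by simp
    have h3 := congrArg (fun x : A => (x : Qb)) h2
    simp only [heA] at h3
    have h4 : (((eA⁻¹ : Aˣ) : A) : Qb) * c⁻¹ = 1 := h3
    have hc0 : c ≠ 0 := by
      rintro rfl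
      simp at h4
    field_simp at h4
    exact h4

/-- roots of unity of `A((q))` are constants, hence lie in the function field -/
theorem incA_mem_of_pow_eq_one {N : ℕ} {A : ValuationSubring Qb} {a : ℕ} (ha : 0 < a)
    {ξ : LaurentSeries A} (hξ : ξ ^ a = 1) : incA A ξ ∈ modularFunctionFieldBar N := by
  have : NeZero a := ⟨ha.ne'⟩
  have : NeZero (a : Qb) := ⟨by exact_mod_cast ha.ne'⟩
  obtain ⟨ζ, hζ⟩ := HasEnoughRootsOfUnity.exists_primitiveRoot Qb a
  obtain ⟨ζA, hζA⟩ := exists_unit_of_pow_eq_one (A := A) ha.ne'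
    (ζ := hζ.isUnit ha.ne' |>.unit) (by
      apply Units.ext
      simpa using hζ.pow_eq_one)
  have h1 : IsPrimitiveRoot (ζA : A) a := by
    have := congrArg Units.val hζA
    simp only [Units.coe_map, IsUnit.unit_spec] at this
    refine IsPrimitiveRoot.of_map_of_injective (f := A.subtype) (hf := Subtype.val_injective) ?_
    rw [show A.subtype (ζA : A) = ζ from this]
    exact hζ
  have h2 : IsPrimitiveRoot (HahnSeries.C (ζA : A) : LaurentSeries A) a :=
    h1.map_of_injective (f := (HahnSeries.C : A →+* LaurentSeries A)) HahnSeries.C_injective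
  obtain ⟨i, -, hi⟩ := h2.eq_pow_of_pow_eq_one hξ
  rw [← hi, ← map_pow, coeffMap_C, C_eq_algebraMap]
  exact (modularFunctionFieldBar N).algebraMap_mem _

/-- **KIL is multiplicative in the exponent.** -/
theorem KILAt.mul {N : ℕ} [NeZero N] {ℓ : ℕ} [Fact ℓ.Prime] (hℓN : ¬ ℓ ∣ N)
    {A : ValuationSubring Qb} (hA : A.LiesOverPrime ℓ) {a b : ℕ} (ha : 0 < a)
    (hKa : KILAt N A a) (hKb : KILAt N A b) : KILAt N A (a * b) := by
  intro y₁ y₂ h₁ h₂ hred hne hdiv
  have hne₂ : redA A y₂ ≠ 0 := hred ▸ hne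
  obtain ⟨ψ, hψ⟩ := hKa y₁ y₂ h₁ h₂ hred hne (fun P =>
    dvd_trans (by push_cast; exact dvd_mul_right _ _) (hdiv P))
  have hψ' : (ψ : LaurentSeries Qb) ^ a * incA A y₂ = incA A y₁ := congrArg Subtype.val hψ
  have hψ0 : (ψ : LaurentSeries Qb) ≠ 0 := by
    intro h
    rw [h, zero_pow ha.ne', zero_mul] at hψ'
    exact redA_ne_zero_imp hne hψ'.symm
  obtain ⟨c, Y₁, Y₂, hc, H₁, H₂, hr₁, hr₂, hrel⟩ := exists_intRep N hℓN A hA ψ.2 hψ0
  -- `c ^ a` is a unit of `A`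
  have hrel2 : incA A (y₁ * Y₂ ^ a) = HahnSeries.C (c ^ a) * incA A (Y₁ ^ a * y₂) := by
    rw [map_mul, map_mul, map_pow, map_pow, map_pow, ← hψ']
    calc (ψ : LaurentSeries Qb) ^ a * incA A y₂ * incA A Y₂ ^ a
        = ((ψ : LaurentSeries Qb) * incA A Y₂) ^ a * incA A y₂ := by ring
      _ = _ := by rw [hrel]; ring
  obtain ⟨dA, hdA⟩ := exists_unit_of_scale (A := A)
    (by rw [map_mul, map_pow]; exact mul_ne_zero hne (pow_ne_zero _ hr₂))
    (by rw [map_mul, map_pow]; exact mul_ne_zero (pow_ne_zero _ hr₁) hne₂) hrel2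
  obtain ⟨cA, hcA⟩ := exists_unit_of_pow_unit ha dA hdA.symm
  set W₁ : LaurentSeries A := HahnSeries.C (cA : A) * Y₁ with hW₁
  have hincW₁ : incA A W₁ = HahnSeries.C c * incA A Y₁ := by
    rw [hW₁, map_mul, coeffMap_C]
    show HahnSeries.C ((cA : A) : Qb) * _ = _
    rw [hcA]
  have hredW₁ : redA A W₁ ≠ 0 := by
    rw [hW₁, map_mul, coeffMap_C]
    refine mul_ne_zero (fun h => ?_) hr₁
    have h0 : IsLocalRing.residue A (cA : A) = 0 := HahnSeries.C_injective (by rw [h, map_zero])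
    exact (IsLocalRing.residue_ne_zero_iff_isUnit _).2 cA.isUnit h0
  have hkey : W₁ ^ a * y₂ = y₁ * Y₂ ^ a := by
    apply incA_injective A
    rw [hrel2, map_mul, map_mul, map_pow, map_pow, hincW₁, mul_pow, map_pow]
    ring
  have hredkey : redA A W₁ ^ a = redA A Y₂ ^ a := by
    have h := congrArg (redA A) hkey
    rw [map_mul, map_mul, map_pow, map_pow, hred, mul_comm] at h
    exact mul_left_cancel₀ hne₂ h
  -- a root of unity `ξ` with `red W₁ = red (ξ Y₂)`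
  have : NeZero a := ⟨ha.ne'⟩
  have : NeZero (a : Qb) := ⟨by exact_mod_cast ha.ne'⟩
  obtain ⟨ξ, hξ, hξred⟩ : ∃ ξ : LaurentSeries A, ξ ^ a = 1 ∧ redA A W₁ = redA A (ξ * Y₂) := by
    obtain ⟨ζ, hζ⟩ := HasEnoughRootsOfUnity.exists_primitiveRoot Qb a
    obtain ⟨ζA, hζA⟩ := exists_unit_of_pow_eq_one (A := A) ha.ne'
      (ζ := hζ.isUnit ha.ne' |>.unit) (by
        apply Units.ext
        simpa using hζ.pow_eq_one)
    have h1 : IsPrimitiveRoot (ζA : A) a := by
      have := congrArg Units.val hζA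
      simp only [Units.coe_map, IsUnit.unit_spec] at this
      refine IsPrimitiveRoot.of_map_of_injective (f := A.subtype) (hf := Subtype.val_injective) ?_
      rw [show A.subtype (ζA : A) = ζ from this]
      exact hζ
    have h2 : IsPrimitiveRoot (HahnSeries.C (ζA : A) : LaurentSeries A) a :=
      h1.map_of_injective (f := (HahnSeries.C : A →+* LaurentSeries A)) HahnSeries.C_injective
    have h3 := h2.pow_sub_pow_eq_prod_sub_mul W₁ Y₂ ha
    have h4 := congrArg (redA A) h3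
    rw [map_sub, map_pow, map_pow, hredkey, sub_self, map_prod] at h4
    obtain ⟨ξ, hξ, h5⟩ := Finset.prod_eq_zero_iff.1 h4.symm
    refine ⟨ξ, (Polynomial.mem_nthRootsFinset ha _).1 hξ, ?_⟩
    rw [map_sub] at h5
    exact sub_eq_zero.1 h5
  set W₂ : LaurentSeries A := ξ * Y₂ with hW₂
  have HW₁ : incA A W₁ ∈ modularFunctionFieldBar N := by
    rw [hincW₁, C_eq_algebraMap]
    exact mul_mem ((modularFunctionFieldBar N).algebraMap_mem _) H₁
  have HW₂ : incA A W₂ ∈ modularFunctionFieldBar N := by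
    rw [hW₂, map_mul]
    exact mul_mem (incA_mem_of_pow_eq_one ha hξ) H₂
  have hkey2 : W₁ ^ a * y₂ = y₁ * W₂ ^ a := by
    rw [hkey, hW₂, mul_pow, hξ, one_mul]
  set Z₁ : modularFunctionFieldBar N := ⟨_, h₁⟩ with hZ₁
  set Z₂ : modularFunctionFieldBar N := ⟨_, h₂⟩ with hZ₂
  set V₁ : modularFunctionFieldBar N := ⟨_, HW₁⟩ with hV₁
  set V₂ : modularFunctionFieldBar N := ⟨_, HW₂⟩ with hV₂
  have hZ₁0 : Z₁ ≠ 0 := fun h => redA_ne_zero_imp hne (congrArg Subtype.val h)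
  have hZ₂0 : Z₂ ≠ 0 := fun h => redA_ne_zero_imp hne₂ (congrArg Subtype.val h)
  have hV₁0 : V₁ ≠ 0 := fun h => redA_ne_zero_imp hredW₁ (congrArg Subtype.val h)
  have hV₂0 : V₂ ≠ 0 := fun h => redA_ne_zero_imp (hξred ▸ hredW₁) (congrArg Subtype.val h)
  have hkeyF : V₁ ^ a * Z₂ = Z₁ * V₂ ^ a := by
    apply Subtype.ext
    have h := congrArg (incA A) hkey2
    rw [map_mul, map_mul, map_pow, map_pow] at h
    exact h
  obtain ⟨φ, hφ⟩ := hKb W₁ W₂ HW₁ HW₂ hξred hredW₁ (fun P => by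
    have h := congrArg P.ord hkeyF
    rw [P.ord_mul (pow_ne_zero _ hV₁0) hZ₂0, P.ord_mul hZ₁0 (pow_ne_zero _ hV₂0),
      ← zpow_natCast, ← zpow_natCast, P.ord_zpow, P.ord_zpow] at h
    have h2 : (a : ℤ) * (P.ord V₁ - P.ord V₂) = P.ord Z₁ - P.ord Z₂ := by
      rw [mul_sub]; omega
    have h3 := hdiv P
    rw [← h2] at h3
    push_cast at h3
    exact (mul_dvd_mul_iff_left (by exact_mod_cast ha.ne')).1 h3)
  have hφ' : φ ^ b * V₂ = V₁ := hφ
  refine ⟨φ, ?_⟩
  show φ ^ (a * b) * Z₂ = Z₁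
  apply mul_right_cancel₀ (pow_ne_zero a hV₂0)
  rw [← hkeyF, ← hφ', mul_comm a b, pow_mul]
  ring

theorem KILAt.one (N : ℕ) (A : ValuationSubring Qb) : KILAt N A 1 := by
  intro y₁ y₂ h₁ h₂ hred hne _
  have hZ₂0 : (⟨_, h₂⟩ : modularFunctionFieldBar N) ≠ 0 :=
    fun h => redA_ne_zero_imp (hred ▸ hne) (congrArg Subtype.val h)
  exact ⟨⟨_, h₁⟩ / ⟨_, h₂⟩, by rw [pow_one, div_mul_cancel₀ _ hZ₂0]⟩

/-- KIL for `p` implies KIL for all powers of `p`. -/
theorem KILAt.pow {N : ℕ} [NeZero N] {ℓ : ℕ} [Fact ℓ.Prime] (hℓN : ¬ ℓ ∣ N)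
    {A : ValuationSubring Qb} (hA : A.LiesOverPrime ℓ) {p : ℕ} (hp : 0 < p)
    (hK : KILAt N A p) (n : ℕ) : KILAt N A (p ^ n) := by
  induction n with
  | zero => simpa using KILAt.one N A
  | succ n ih =>
    rw [pow_succ']
    exact KILAt.mul hℓN hA hp hK ih

end

end Fermat.Agent.ESlib
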