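import Fermat.Agent.ES.E.HeckeSeries
import Fermat.Prelude.Def_EllipticCurve_FrobeniusTrace
import Fermat.Prelude.Def_FLTPrelim_Ramification

/-!
# ES, part E: reduction of Laurent series over a valuation subring of `ℚ̄`, Galois action,
Frobenius and the formal Hecke operators
-/

set_option autoImplicit false

open ModularCurve Fermat.Agent.S28lib

namespace Fermat.Agent.ESlib

noncomputable section

/-- `ℚ̄` -/
abbrev Qb := AlgebraicClosure ℚ

variable (A : ValuationSubring Qb)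

/-- reduction of the coefficients -/
abbrev redA : LaurentSeries A →+* LaurentSeries (IsLocalRing.ResidueField A) :=
  coeffMap (IsLocalRing.residue A)

/-- inclusion of the coefficients -/
abbrev incA : LaurentSeries A →+* LaurentSeries Qb := coeffMap A.subtype

theorem incA_injective : Function.Injective (incA A) := by
  intro x y h
  ext n
  have := congrArg (fun z => HahnSeries.coeff z n) h
  exact this

variable {A}

/-- the action of the decomposition group on Laurent series over `A` -/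
def galA (g : A.decompositionSubgroup ℚ) : LaurentSeries A →+* LaurentSeries A :=
  coeffMap (MulSemiringAction.toRingHom (A.decompositionSubgroup ℚ) A g)

theorem incA_galA (g : A.decompositionSubgroup ℚ) (y : LaurentSeries A) :
    incA A (galA g y) = coeffMap (((g : Qb ≃ₐ[ℚ] Qb) : Qb →+* Qb)) (incA A y) := by
  ext n
  rfl

theorem redA_galA (g : A.decompositionSubgroup ℚ) (y : LaurentSeries A) (n : ℤ) :
    (redA A (galA g y)).coeff n = g • (redA A y).coeff n := by
  show IsLocalRing.residue A (g • y.coeff n) = g • IsLocalRing.residue A (y.coeff n)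
  rw [IsLocalRing.ResidueField.residue_smul]

theorem redA_galA_of_mem_inertia {g : A.decompositionSubgroup ℚ} (hg : g ∈ A.inertiaSubgroup ℚ)
    (y : LaurentSeries A) : redA A (galA g y) = redA A y := by
  ext n
  rw [redA_galA]
  exact congrArg (fun f => f ((redA A y).coeff n)) (MonoidHom.mem_ker.mp hg)

theorem charP_resFieldE {ℓ : ℕ} (hℓ : ℓ.Prime) (hA : A.LiesOverPrime ℓ) :
    CharP (IsLocalRing.ResidueField A) ℓ := by
  rw [CharP.charP_iff_prime_eq_zero hℓ]
  have h1 : ((ℓ : ℕ) : A) ∈ IsLocalRing.maximalIdeal A := by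
    rw [IsLocalRing.mem_maximalIdeal, mem_nonunits_iff]
    intro hu
    have h2 : (((ℓ : ℕ) : A) : Qb) ∈ A.nonunits := by
      have h0 : (((ℓ : ℕ) : A) : Qb) = (ℓ : Qb) := by simp
      rw [h0]
      exact hA
    rw [ValuationSubring.mem_nonunits_iff_exists_mem_maximalIdeal] at h2
    obtain ⟨ha, h3⟩ := h2
    exact (IsLocalRing.mem_maximalIdeal _).1 h3 hu
  rw [← map_natCast (IsLocalRing.residue A)]
  exact (IsLocalRing.residue_eq_zero_iff _).2 h1

theorem redA_galA_of_frobenius {ℓ : ℕ} [Fact ℓ.Prime] [CharP (IsLocalRing.ResidueField A) ℓ]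
    {g : A.decompositionSubgroup ℚ}
    (hg : ∀ x : IsLocalRing.ResidueField A, g • x = x ^ ℓ) (y : LaurentSeries A) :
    redA A (galA g y) = coeffMap (frobenius (IsLocalRing.ResidueField A) ℓ) (redA A y) := by
  ext n
  rw [redA_galA, hg]
  rfl

/-- a root of unity of `ℚ̄` as a unit of `A` -/
theorem exists_unit_of_pow_eq_one {ℓ : ℕ} (hℓ : ℓ ≠ 0) {ζ : Qbˣ} (hζ : ζ ^ ℓ = 1) :
    ∃ ζA : Aˣ, Units.map (A.subtype : A →* Qb) ζA = ζ := by
  have hint : ∀ ξ : Qbˣ, ξ ^ ℓ = 1 → (ξ : Qb) ∈ A := by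
    intro ξ hξ
    have h1 : IsIntegral A (ξ : Qb) := by
      refine ⟨Polynomial.X ^ ℓ - 1, Polynomial.monic_X_pow_sub_C 1 hℓ, ?_⟩
      simp [← Units.val_pow_eq_pow_val, hξ]
    obtain ⟨a, ha⟩ := (IsIntegrallyClosed.isIntegral_iff (R := A) (K := Qb)).1 h1
    rw [← ha]
    exact a.2
  have hinv : (ζ⁻¹) ^ ℓ = 1 := by rw [inv_pow, hζ, inv_one]
  refine ⟨⟨⟨ζ, hint ζ hζ⟩, ⟨(ζ⁻¹ : Qbˣ), hint _ hinv⟩, ?_, ?_⟩, ?_⟩
  · ext; simp
  · ext; simp
  · ext; rfl

theorem residue_unit_eq_one {ℓ : ℕ} [Fact ℓ.Prime] [CharP (IsLocalRing.ResidueField A) ℓ]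
    {ζA : Aˣ} (hζ : ζA ^ ℓ = 1) :
    Units.map (IsLocalRing.residue A : A →* IsLocalRing.ResidueField A) ζA = 1 := by
  ext
  rw [Units.coe_map, Units.val_one]
  apply frobenius_inj (IsLocalRing.ResidueField A) ℓ
  rw [frobenius_def, frobenius_def, one_pow]
  show (IsLocalRing.residue A (ζA : A)) ^ ℓ = 1
  rw [← map_pow, ← Units.val_pow_eq_pow_val, hζ, Units.val_one, map_one]

theorem redA_normU {ℓ : ℕ} [Fact ℓ.Prime] [NeZero ℓ] [CharP (IsLocalRing.ResidueField A) ℓ]
    {ζA : Aˣ} (hζ : ζA ^ ℓ = 1) (y : LaurentSeries A) :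
    redA A (normU ℓ ζA y) = coeffMap (frobenius (IsLocalRing.ResidueField A) ℓ) (redA A y) := by
  rw [coeffMap_normU, residue_unit_eq_one hζ, normU_one_left_char]

/-- **Eichler-Shimura congruence on `q`-expansions.** -/
theorem redA_heckeTS_galA {ℓ : ℕ} [Fact ℓ.Prime] [NeZero ℓ]
    [CharP (IsLocalRing.ResidueField A) ℓ] {ζA : Aˣ} (hζ : ζA ^ ℓ = 1)
    {g : A.decompositionSubgroup ℚ}
    (hg : ∀ x : IsLocalRing.ResidueField A, g • x = x ^ ℓ) (y : LaurentSeries A) :
    redA A (heckeTS ℓ ζA (galA g y)) = redA A (y ^ ℓ * galA g (galA g y)) := by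
  rw [heckeTS, map_mul, map_mul, redA_normU hζ, coeffMap_qExpand, redA_galA_of_frobenius hg,
    ← pow_char_eq_qExpand, map_pow, redA_galA_of_frobenius hg (galA g y),
    redA_galA_of_frobenius hg y]

end

end Fermat.Agent.ESlib
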