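import Fermat.Agent.ES.E.ThetaC
import Fermat.Agent.ES.D.Main
import Fermat.Agent.ES.D.S29of30
import Fermat.Agent.ES.K.S18Final

/-!
# ES: S30 from `KILHaupt`

The statement of S30 follows from the key injectivity lemma at the levels divisible by `2` or `3`
(`KILHaupt`, the target of the modular side).
-/

set_option autoImplicit false

namespace Fermat.Agent.ESlib

open PartD

/-- the Tate datum from `KILHaupt` -/
noncomputable def tateDatumOfKILHaupt
    (H : ∀ (ℓ : ℕ), ℓ.Prime → ∀ A : ValuationSubring (AlgebraicClosure ℚ), A.LiesOverPrime ℓ →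
      KILHaupt ℓ A) (N : ℕ) [NeZero N] (p : ℕ) (hp : p.Prime) : TateDatum N p :=
  tateDatumOfKIL N p hp.pos (fun ℓ hℓ hℓN hℓp A hA =>
    kilAt_of_kilHaupt hℓ (H ℓ hℓ A hA) N hℓN p hp (fun h => hℓp h.symm))

/-- **S30** from `KILHaupt`. -/
theorem s30_of_kilHaupt
    (H : ∀ (ℓ : ℕ), ℓ.Prime → ∀ A : ValuationSubring (AlgebraicClosure ℚ), A.LiesOverPrime ℓ →
      KILHaupt ℓ A) : StatementS30 :=
  fun p _ N _ S hpS hNS 𝒪' _ _ _ _ _ _ hp𝒪' χ =>
    s30_of_tateDatum (tateDatumOfKILHaupt H N p Fact.out) S hpS hNS 𝒪' hp𝒪' χ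

end Fermat.Agent.ESlib
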