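import Fermat.Agent.ES.E.ThetaQ
import Fermat.Agent.ES.A.ExpChar
import Fermat.Agent.ES.A.BettiEigen

/-!
# ES, part E: the comparison isomorphisms `W_{p^n}(ℚ̄, N) ≃ Λ / p ^ n Λ` and the Tate datum

`relC N m f x` : the `m`-th root of `f ∈ F_ℂ(N)` has the character `γ ↦ exp (2 π i x(γ) / m)`.
Parts A (function side, Betti side, Hecke) and B give `thetaSys N p : ThetaSys N p`.
-/

set_option autoImplicit false

open UpperHalfPlane ModularForm MatrixGroups CongruenceSubgroup ModularCurve AlgebraicCurve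
open scoped Manifold
open Fermat.Agent.S24lib

namespace Fermat.Agent.ESlib

open PartD

noncomputable section

variable {N : ℕ} [NeZero N]

/-- the graph of `W_m(ℂ, N) ≃ Λ / m Λ` -/
def relC (N : ℕ) [NeZero N] (m : ℕ) (f : FK ℂ N) (x : betti N) : Prop :=
  IsRootChar N m f (expChar m x)

theorem thetaRel_relC {m : ℕ} (hm : m ≠ 0) : ThetaRel ℂ m (mSub N m) (relC N m) where
  exists_right hf := by
    have : NeZero m := ⟨hm⟩
    obtain ⟨χ, hχ, h⟩ := exists_isRootChar hm hf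
    obtain ⟨x, rfl⟩ := exists_expChar_eq m hχ
    exact ⟨x, h⟩
  exists_left x := by
    have : NeZero m := ⟨hm⟩
    exact exists_mDiv_isRootChar hm (expChar_mem_XGrp m x)
  mul _ _ hx hy := by
    rw [relC, expChar_add]
    exact IsRootChar.mul hm hx hy
  right_iff {f x y} hf hx := by
    have : NeZero m := ⟨hm⟩
    rw [← expChar_eq_iff]
    constructor
    · intro hy
      exact IsRootChar.unique hm hf.1 hy hx
    · intro h
      rw [relC, h]
      exact hx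
  zero_iff hf := by
    rw [relC, expChar_zero]
    exact isRootChar_one_iff hm hf.1

/-- transition: an `(m k)`-th root gives an `m`-th root -/
theorem IsRootChar.of_mulE {m k : ℕ} (hm : m ≠ 0) {f : FK ℂ N} {χ : ↥(Gamma0 N) →* ℂˣ}
    (h : IsRootChar N (m * k) f χ) (hk : k ≠ 0) : IsRootChar N m f (χ ^ k) := by
  obtain ⟨P, Q, a, hQ, hf, ha, hpow, hχ⟩ := h
  refine isRootChar_of_pow hm (R := P * Q ^ (m * k - 1)) (S := Q ^ k) (a := fun τ => a τ ^ k)
    ?_ ?_ (ha.pow k) (fun τ => ?_) (fun γ τ => ?_)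
  · rw [map_pow]; exact pow_ne_zero _ hQ
  · have h1 : m * k = (m * k - 1) + 1 := by
      have : 0 < m * k := Nat.mul_pos (Nat.pos_of_ne_zero hm) (Nat.pos_of_ne_zero hk)
      omega
    rw [map_pow, ← pow_mul, mul_comm k m, map_mul, map_pow, ← hf]
    conv_lhs => rw [h1, pow_succ]
    ring
  · rw [← pow_mul, mul_comm k m, hpow, map_mul, map_pow]
    rfl
  · rw [hχ, mul_pow, MonoidHom.pow_apply, Units.val_pow_eq_pow_val]

theorem relC_trans {m k : ℕ} (hm : m ≠ 0) (hk : k ≠ 0) {f : FK ℂ N} {x : betti N}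
    (h : relC N (m * k) f x) : relC N m f x := by
  rw [relC, ← expChar_mul_pow m k hk]
  exact IsRootChar.of_mulE hm h hk

theorem relC_heckeTS {m : ℕ} (hm : m ≠ 0) {ℓ : ℕ} [NeZero ℓ] (hℓ : ℓ.Prime) (hℓN : ¬ ℓ ∣ N)
    {ζ : ℂˣ} (hζ : IsPrimitiveRoot ζ ℓ) {f : FK ℂ N} (hf : f ≠ 0) {x : betti N}
    (h : relC N m f x) :
    relC N m ⟨heckeTS ℓ ζ (f : LaurentSeries ℂ), heckeTS_mem hℓ hℓN hζ f⟩
      (bettiHecke N (CuspForm.heckeAlgebra.T hℓ hℓN (Set.notMem_empty ℓ)) x) := by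
  have : Fact ℓ.Prime := ⟨hℓ⟩
  obtain ⟨χ', h1, h2⟩ := isRootChar_heckeTS hm hℓ hℓN hζ hf h
  rw [relC, ← IsTransfer.expChar_T hℓ hℓN h1]
  exact h2

theorem relC_normU {m : ℕ} (hm : m ≠ 0) {q : ℕ} [NeZero q] (hq : q.Prime) (hqN : q ∣ N)
    {ζ : ℂˣ} (hζ : IsPrimitiveRoot ζ q) {f : FK ℂ N} (hf : f ≠ 0) {x : betti N}
    (h : relC N m f x) :
    relC N m ⟨normU q ζ (f : LaurentSeries ℂ), normU_mem hq hqN hζ f⟩
      (bettiHecke N (CuspForm.heckeAlgebra.U hq hqN (Set.notMem_empty q)) x) := by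
  obtain ⟨χ', h1, h2⟩ := isRootChar_normU hm hq hqN hζ hf h
  rw [relC, ← IsTransfer.expChar_U hq hqN h1]
  exact h2

theorem mSub_pow_eq (N p n : ℕ) : mSub N (p ^ n) = powSub (betti N) p n := by
  rw [mSub, powSub, Nat.cast_pow]

theorem finite_quotient_powSub (Λ : Type) [AddCommGroup Λ] [Module.Finite ℤ Λ] {p : ℕ} (hp : 0 < p)
    (n : ℕ) : Finite (Λ ⧸ powSub Λ p n) := by
  have h1 : AddGroup.FG (Λ ⧸ powSub Λ p n) := Module.Finite.iff_addGroup_fg.1 inferInstance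
  refine AddCommGroup.finite_of_fg_isAddTorsion _ (fun X => ?_)
  obtain ⟨x, rfl⟩ := Submodule.Quotient.mk_surjective _ X
  rw [isOfFinAddOrder_iff_nsmul_eq_zero]
  refine ⟨p ^ n, pow_pos hp n, ?_⟩
  rw [← Submodule.Quotient.mk_smul, Submodule.Quotient.mk_eq_zero]
  exact ⟨x, by simp [← natCast_zsmul]⟩

/-- **The comparison system** over `ℚ̄` (Parts A and B). -/
def thetaSys (N : ℕ) [NeZero N] (p : ℕ) (hp : 0 < p) : ThetaSys N p where
  Λ := betti N
  hecke := bettiHecke N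
  eigen := betti.finrank_eigen
  rel n f x := relC N (p ^ n) (bcQ N f) x
  isTheta n := by
    have := finite_quotient_powSub (betti N) hp n
    have h := thetaRel_relC (N := N) (pow_pos hp n).ne'
    rw [mSub_pow_eq] at h
    exact h.descend (pow_pos hp n)
  trans n f x _ h := by
    rw [pow_succ] at h
    exact relC_trans (pow_pos hp n).ne' hp.ne' h
  T_mem hℓ hℓN _ hζ u hu := heckeTS_mem_bar hℓ hℓN hζ u hu
  U_mem hq hqN _ hζ u hu := normU_mem_bar hq hqN hζ u hu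
  T_rel n ℓ _ hℓ hℓN ζ hζ f x hf hx := by
    refine ⟨mDiv_heckeTS_bar (pow_pos hp n).ne' hℓ hℓN hζ hf, ?_⟩
    have e := bc_heckeTS hℓ hℓN hζ (isPrimitiveRoot_zetaC ℓ) f
    show relC N (p ^ n) (bcQ N ⟨_, _⟩) _
    rw [show bcQ N ⟨heckeTS ℓ ζ (f : LaurentSeries Kb), heckeTS_mem_bar hℓ hℓN hζ _ f.2⟩ = _ from e]
    exact relC_heckeTS (pow_pos hp n).ne' hℓ hℓN (isPrimitiveRoot_zetaC ℓ)
      (mDiv_bcQ_iff.2 hf).1 hx
  U_rel n q _ hq hqN ζ hζ f x hf hx := by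
    refine ⟨mDiv_normU_bar (pow_pos hp n).ne' hq hqN hζ hf, ?_⟩
    have e := bc_normU hq hqN hζ (isPrimitiveRoot_zetaC q) f
    show relC N (p ^ n) (bcQ N ⟨_, _⟩) _
    rw [show bcQ N ⟨normU q ζ (f : LaurentSeries Kb), normU_mem_bar hq hqN hζ _ f.2⟩ = _ from e]
    exact relC_normU (pow_pos hp n).ne' hq hqN (isPrimitiveRoot_zetaC q)
      (mDiv_bcQ_iff.2 hf).1 hx

/-- **The Tate datum of `J₀(N)`** from KIL for the exponent `p`. -/
def tateDatumOfKIL (N : ℕ) [NeZero N] (p : ℕ) (hp : 0 < p)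
    (hK : ∀ ℓ : ℕ, ℓ.Prime → ¬ ℓ ∣ N → ℓ ≠ p → ∀ A : ValuationSubring Qb, A.LiesOverPrime ℓ →
      KILAt N A p) : TateDatum N p :=
  (thetaSys N p hp).tateDatum hp hK

end

end Fermat.Agent.ESlib
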