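import Fermat.Agent.ES.E.Tate
import Fermat.Agent.ES.A.HeckeFunBar

/-!
# ES, part E: descent of the comparison isomorphism from `ℂ` to `ℚ̄`

If `rel` is the graph of an isomorphism `W_m(ℂ, N) ≃ Λ / S` with `Λ / S` finite, then
`fun f x => rel (bc f) x` is the graph of an isomorphism `W_m(ℚ̄, N) ≃ Λ / S` (Part B).
-/

set_option autoImplicit false

open ModularCurve AlgebraicCurve
open Fermat.Agent.S24lib

namespace Fermat.Agent.ESlib

noncomputable section

theorem order_jq_ne_zero : (jq : LaurentSeries ℚ).order ≠ 0 := by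
  intro h
  have h1 : (jq : LaurentSeries ℚ).coeff (-1) = 0 :=
    HahnSeries.coeff_eq_zero_of_lt_order (by rw [h]; norm_num)
  rw [coeff_jq_neg_one] at h1
  exact one_ne_zero h1

variable {N : ℕ} [NeZero N]

/-- the base change `F_ℚ̄(N) → F_ℂ(N)` -/
abbrev bcQ (N : ℕ) : modularFunctionFieldBar N →+* FK ℂ N := bc Kb ℂ (modularFunctionFieldFull N)

theorem mDiv_bcQ_iff {m : ℕ} {f : modularFunctionFieldBar N} :
    MDiv ℂ m (bcQ N f) ↔ MDiv Qb m f :=
  mDiv_bc_iff Kb ℂ (modularFunctionFieldFull N) (isFF_FK N)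

/-- **Part B** in relational form. -/
theorem ThetaRel.descend {Λ : Type*} [AddCommGroup Λ] {m : ℕ} (hm : 0 < m) {S : Submodule ℤ Λ}
    [Finite (Λ ⧸ S)] {rel : FK ℂ N → Λ → Prop} (h : ThetaRel ℂ m S rel) :
    ThetaRel Qb m S (fun (f : modularFunctionFieldBar N) x => rel (bcQ N f) x) where
  exists_right hf := h.exists_right (mDiv_bcQ_iff.2 hf)
  exists_left x := by
    obtain ⟨φ, hφ, hx⟩ := h.exists_left x
    let rep : Λ ⧸ S → FK ℂ N := fun X => (h.exists_left (Quotient.out X)).choose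
    have hrep : ∀ X, MDiv ℂ m (rep X) ∧ rel (rep X) (Quotient.out X) :=
      fun X => (h.exists_left (Quotient.out X)).choose_spec
    obtain ⟨f, hf⟩ := exists_bc_sameClass Kb ℂ (modularFunctionFieldFull N) (isFF_FK N) jq
      (modularFunctionField_le_full N (jq_mem N)) order_jq_ne_zero hm φ hφ.1
      (Set.range rep) (Set.finite_range rep) (fun σ => by
        set g := arithmeticGalois (modularFunctionFieldFull N) σ with hg
        have hdiv : MDiv ℂ m (g • φ) := by
          refine ⟨(smul_ne_zero_iff_ne _).2 hφ.1, fun v => ?_⟩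
          have h1 := SemilinearAut.ord_smul g (g⁻¹ • v) φ
          rw [smul_inv_smul] at h1
          rw [h1]
          exact hφ.2 _
        obtain ⟨y, hy⟩ := h.exists_right hdiv
        refine ⟨rep (Submodule.Quotient.mk y), ⟨_, rfl⟩, ?_⟩
        refine (h.sameClass_iff (hrep _).1 hdiv (hrep _).2 hy).2 ?_
        rw [← Submodule.Quotient.eq]
        exact (Quotient.out_eq (Submodule.Quotient.mk y : Λ ⧸ S)).symm)
    have h1 : MDiv ℂ m (bcQ N f) := hφ.sameClass hf
    exact ⟨f, mDiv_bcQ_iff.1 h1, h.rel_of_sameClass hφ hx hf⟩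
  mul hf hg hx hy := by
    rw [map_mul]
    exact h.mul (mDiv_bcQ_iff.2 hf) (mDiv_bcQ_iff.2 hg) hx hy
  right_iff hf hx := h.right_iff (mDiv_bcQ_iff.2 hf) hx
  zero_iff {f} hf := by
    rw [h.zero_iff (mDiv_bcQ_iff.2 hf)]
    constructor
    · rintro ⟨g, hg⟩
      obtain ⟨g₀, hg₀, -⟩ := exists_pow_eq_of_bc_eq_pow Kb ℂ (modularFunctionFieldFull N) hm f g hg
      exact ⟨g₀, hg₀⟩
    · rintro ⟨g, rfl⟩
      exact ⟨bcQ N g, map_pow _ _ _⟩

end

end Fermat.Agent.ESlib
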